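import Fermat.Agent.S23.MF

/-!
# S48 (P3), port of S23 to `Γ₁(N)`: definitions and the interface with THETA1
Owner: helper15 (PORT).

`S48/G1/*.lean` is the port of `Fermat/Agent/S23/*` (integral structure of `S_k(Γ₀(N))`) to
`Γ₁(N)`.  The files of S23 which are generic in the group are imported, the others are copied with
`G0 N` replaced by `G1 N` and the weight `4` of the primitive element replaced by an arbitrary
weight `κ`.  Namespace: `Fermat.Agent.S48G1`.

The only input which is not generic is the primitive element: `ThetaAt N κ` (seat THETA1).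
-/

set_option autoImplicit false

namespace Fermat.Agent.S48G1

open UpperHalfPlane ModularForm MatrixGroups Filter Topology Fermat.Agent.S23

/-- `Γ₁(N)` as a subgroup of `GL(2, ℝ)`; this is what the coercion in
`CuspForm (CongruenceSubgroup.Gamma1 N) k` unfolds to. -/
abbrev G1 (N : ℕ) : Subgroup (GL (Fin 2) ℝ) :=
  (CongruenceSubgroup.Gamma1 N).map (Matrix.SpecialLinearGroup.mapGL ℝ)

/-- **(THETA1) at level `N`, weight `κ`**: a primitive element for `Γ₁(N)`: a modular form `θ` of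
weight `κ` on `Γ₁(N)` whose `q`-expansion is rational with bounded denominators, with value `1`
at `i∞`, all of whose translates by the nontrivial cosets of `Γ₁(N)` in `SL(2,ℤ)` have a limit
`≠ 1` at `i∞`.  (For `N ≥ 3` the coset of `-I` is nontrivial, so `κ` must be odd.) -/
def ThetaAt (N : ℕ) (κ : ℤ) : Prop :=
  ∃ θ : ModularForm (G1 N) κ,
    (∃ M : ℕ, 0 < M ∧ (M : ℂ) • qExpansion 1 θ ∈ ZSer) ∧
    Tendsto θ atImInfty (𝓝 1) ∧
    ∀ q : 𝒮ℒ ⧸ (G1 N).subgroupOf 𝒮ℒ, q ≠ QuotientGroup.mk 1 →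
      ∃ ℓ : ℂ, ℓ ≠ 1 ∧ Tendsto (SlashInvariantForm.quotientFunc θ q) atImInfty (𝓝 ℓ)

/-- **(THETA1)**: a primitive element exists for every `Γ₁(N)`, `N ≥ 3` (of some weight). -/
def ThetaStatement : Prop :=
  ∀ (N : ℕ) [NeZero N], 3 ≤ N → ∃ κ : ℤ, ThetaAt N κ

theorem one_mem_strictPeriods_G1 (N : ℕ) : (1 : ℝ) ∈ (G1 N).strictPeriods := by
  rw [show G1 N = ((CongruenceSubgroup.Gamma1 N : Subgroup SL(2, ℤ)) : Subgroup (GL (Fin 2) ℝ))
    from rfl, CongruenceSubgroup.strictPeriods_Gamma1]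
  exact AddSubgroup.mem_zmultiples 1

theorem G1_le_SL (N : ℕ) : G1 N ≤ 𝒮ℒ := by
  rintro _ ⟨γ, -, rfl⟩
  exact ⟨γ, rfl⟩

end Fermat.Agent.S48G1
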