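import Fermat.Agent.S48.G1.Defs

/-!
# S48 PORT of S23/Esymm.lean (owner of the original: helper33; port: helper15):
elementary symmetric functions of the `SL(2,ℤ)`-translates, for `Γ₁(N)`

For a form `f` on `Γ₁(N)`, `esymmFun N f j = e_j (f ∣[k] h⁻¹ : h ∈ SL(2,ℤ)/Γ₁(N))`.
Proof sketch: exactly as Mathlib's `SlashInvariantForm.norm` / `ModularForm.norm`
(`Mathlib/NumberTheory/ModularForms/NormTrace.lean`), which is the case `j = index`:
`SlashAction.sum_slash`, `ModularForm.prod_slash` (weight `k * #s`, `#s = j` on `powersetCard j`),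
`quotientFunc_smul`, and reindexing `powersetCard j univ` by the permutation `q ↦ h⁻¹ • q`.
Boundedness / vanishing at cusps as in `ModularForm.norm` / `CuspForm.trace`.
-/

set_option autoImplicit false

namespace Fermat.Agent.S48G1

open UpperHalfPlane ModularForm MatrixGroups Fermat.Agent.S23

/-- The `j`-th elementary symmetric function of the `SL(2,ℤ)`-translates of `f`. -/
noncomputable def esymmFun (N : ℕ) [NeZero N] {F : Type*} [FunLike F ℍ ℂ] {k : ℤ}
    [SlashInvariantFormClass F (G1 N) k] (f : F) (j : ℕ) : ℍ → ℂ :=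
  letI := Fintype.ofFinite (𝒮ℒ ⧸ (G1 N).subgroupOf 𝒮ℒ)
  ∑ s ∈ Finset.powersetCard j (Finset.univ : Finset (𝒮ℒ ⧸ (G1 N).subgroupOf 𝒮ℒ)),
    ∏ q ∈ s, SlashInvariantForm.quotientFunc f q

section aux

open SlashInvariantForm Finset

/-- The coset space `SL(2,ℤ) / Γ₁(N)`. -/
abbrev EsymmQ (N : ℕ) : Type := 𝒮ℒ ⧸ (G1 N).subgroupOf 𝒮ℒ

variable (N : ℕ) [NeZero N] {F : Type*} [FunLike F ℍ ℂ] {k : ℤ}

omit [NeZero N] in
/-- Slashing a product of `j` translates by an element of `SL(2,ℤ)` permutes the translates. -/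
lemma esymm_prod_slash [SlashInvariantFormClass F (G1 N) k] (f : F) {j : ℕ}
    {h : GL (Fin 2) ℝ} (hh : h ∈ 𝒮ℒ) [DecidableEq (EsymmQ N)] (s : Finset (EsymmQ N))
    (hs : #s = j) :
    (∏ q ∈ s, quotientFunc f q) ∣[k * j] h =
      ∏ q ∈ s.map (MulAction.toPerm (⟨h, hh⟩ : 𝒮ℒ)⁻¹).toEmbedding, quotientFunc f q := by
  rw [← hs, ModularForm.prod_slash, Subgroup.HasDetPlusMinusOne.abs_det hh, one_zpow, one_smul,
    Finset.prod_map]
  refine Finset.prod_congr rfl fun q _ => ?_
  rw [quotientFunc_smul f hh]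
  rfl

lemma esymmFun_slash [SlashInvariantFormClass F (G1 N) k] (f : F) (j : ℕ)
    {h : GL (Fin 2) ℝ} (hh : h ∈ 𝒮ℒ) :
    esymmFun N f j ∣[k * j] h = esymmFun N f j := by
  classical
  letI := Fintype.ofFinite (EsymmQ N)
  unfold esymmFun
  rw [SlashAction.sum_slash]
  have key : ∀ s ∈ powersetCard j (univ : Finset (EsymmQ N)),
      (∏ q ∈ s, quotientFunc f q) ∣[k * j] h =
        ∏ q ∈ s.map (MulAction.toPerm (⟨h, hh⟩ : 𝒮ℒ)⁻¹).toEmbedding, quotientFunc f q :=
    fun s hs => esymm_prod_slash N f hh s (mem_powersetCard.mp hs).2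
  rw [Finset.sum_congr rfl key]
  have hmap : (powersetCard j (univ : Finset (EsymmQ N))).map
      (mapEmbedding (MulAction.toPerm (⟨h, hh⟩ : 𝒮ℒ)⁻¹).toEmbedding).toEmbedding =
      powersetCard j (univ : Finset (EsymmQ N)) := by
    rw [← powersetCard_map, Finset.map_univ_equiv]
  conv_rhs => rw [← hmap]
  rw [Finset.sum_map]
  rfl

end aux

section cusps

open SlashInvariantForm Finset

variable (N : ℕ) [NeZero N] {k : ℤ}

/-- The translates of a modular form are bounded at `i∞` after slashing by any `γ` sending `∞`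
to a cusp of `SL(2,ℤ)`. -/
lemma esymm_isBoundedAtImInfty_quotientFunc_slash (f : ModularForm (G1 N) k)
    {γ : GL (Fin 2) ℝ} (hγ : IsCusp (γ • OnePoint.infty) 𝒮ℒ) (q : EsymmQ N) :
    IsBoundedAtImInfty (quotientFunc f q ∣[k] γ) := by
  induction q using Quotient.inductionOn with
  | h r =>
    obtain ⟨r, hr⟩ := r
    refine (ModularForm.translate f r⁻¹).bdd_at_cusps' ?_ γ rfl
    simpa using hγ.of_isFiniteRelIndex_conj hr

/-- The translates of a cusp form vanish at `i∞` after slashing by any `γ` sending `∞`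
to a cusp of `SL(2,ℤ)`. -/
lemma esymm_isZeroAtImInfty_quotientFunc_slash (f : CuspForm (G1 N) k)
    {γ : GL (Fin 2) ℝ} (hγ : IsCusp (γ • OnePoint.infty) 𝒮ℒ) (q : EsymmQ N) :
    IsZeroAtImInfty (quotientFunc f q ∣[k] γ) := by
  induction q using Quotient.inductionOn with
  | h r =>
    obtain ⟨r, hr⟩ := r
    refine (CuspForm.translate f r⁻¹).zero_at_cusps' ?_ γ rfl
    simpa using hγ.of_isFiniteRelIndex_conj hr

end cusps

section slashes

open SlashInvariantForm Finset

variable (N : ℕ) [NeZero N] {F : Type*} [FunLike F ℍ ℂ] {k : ℤ}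

/-- Slashing `esymmFun` by an arbitrary element of `GL(2,ℝ)`, termwise. -/
lemma esymmFun_slash_eq [SlashInvariantFormClass F (G1 N) k] (f : F) (j : ℕ)
    (γ : GL (Fin 2) ℝ) :
    letI := Fintype.ofFinite (EsymmQ N)
    esymmFun N f j ∣[k * j] γ =
      ∑ s ∈ powersetCard j (univ : Finset (EsymmQ N)),
        |γ.det.val| ^ ((j : ℤ) - 1) • ∏ q ∈ s, quotientFunc f q ∣[k] γ := by
  classical
  letI := Fintype.ofFinite (EsymmQ N)
  unfold esymmFun
  rw [SlashAction.sum_slash]
  refine Finset.sum_congr rfl fun s hs => ?_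
  have hs' : #s = j := (mem_powersetCard.mp hs).2
  rw [← hs', ModularForm.prod_slash]

end slashes

theorem isMF_esymmFun (N : ℕ) [NeZero N] {k : ℤ} (f : ModularForm (G1 N) k) (j : ℕ) :
    IsMF 𝒮ℒ (k * j) (esymmFun N f j) := by
  classical
  letI := Fintype.ofFinite (EsymmQ N)
  refine ⟨{ toFun := esymmFun N f j
            slash_action_eq' := fun h hh => esymmFun_slash N f j hh
            holo' := ?_
            bdd_at_cusps' := ?_ }, rfl⟩
  · unfold esymmFun
    exact .sum fun s _ => .prod (Quotient.forall.mpr fun ⟨r, hr⟩ _ ↦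
      (ModularForm.translate f r⁻¹).holo')
  · intro c hc γ hγ
    subst hγ
    rw [esymmFun_slash_eq, IsBoundedAtImInfty, Filter.BoundedAtFilter, Finset.sum_fn]
    refine .fun_sum fun s _ => ?_
    apply Asymptotics.IsBigO.const_smul_left
    rw [show (1 : ℍ → ℝ) = (fun x ↦ ∏ _i ∈ s, (1 : ℝ)) by ext; simp, Finset.prod_fn]
    exact .finsetProd fun q _ => esymm_isBoundedAtImInfty_quotientFunc_slash N f hc q

theorem isCF_esymmFun (N : ℕ) [NeZero N] {k : ℤ} (f : CuspForm (G1 N) k) (j : ℕ) (hj : 0 < j) :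
    IsCF 𝒮ℒ (k * j) (esymmFun N f j) := by
  classical
  letI := Fintype.ofFinite (EsymmQ N)
  refine ⟨{ toFun := esymmFun N f j
            slash_action_eq' := fun h hh => esymmFun_slash N f j hh
            holo' := ?_
            zero_at_cusps' := ?_ }, rfl⟩
  · unfold esymmFun
    exact .sum fun s _ => .prod (Quotient.forall.mpr fun ⟨r, hr⟩ _ ↦
      (CuspForm.translate f r⁻¹).holo')
  · intro c hc γ hγ
    subst hγ
    rw [esymmFun_slash_eq, IsZeroAtImInfty, Filter.ZeroAtFilter, Finset.sum_fn]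
    rw [show (0 : ℂ) = ∑ _s ∈ Finset.powersetCard j (Finset.univ : Finset (EsymmQ N)), (0 : ℂ)
      by simp]
    refine tendsto_finsetSum _ fun s hs => ?_
    have hs' : s.card = j := (Finset.mem_powersetCard.mp hs).2
    have h0 : Filter.Tendsto (fun x => ∏ q ∈ s, (SlashInvariantForm.quotientFunc f q ∣[k] γ) x)
        atImInfty (nhds (∏ _q ∈ s, (0 : ℂ))) :=
      tendsto_finsetProd _ fun q _ => esymm_isZeroAtImInfty_quotientFunc_slash N f hc q
    rw [Finset.prod_const, hs', zero_pow hj.ne'] at h0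
    have h1 := h0.const_smul (|γ.det.val| ^ ((j : ℤ) - 1))
    rw [smul_zero] at h1
    refine h1.congr fun x => ?_
    simp [Finset.prod_apply]

end Fermat.Agent.S48G1
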