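import Fermat.Agent.S23.Transport
import Fermat.Agent.S48.G1.Converse
import Fermat.Agent.S48.G1.Lagrange

/-!
# S48 PORT of S23/StabilityMap.lean (owner of the original: helper23; port: helper15):
stability of the q-expansions of cusp forms on `Γ₁(N)` under ring endomorphisms of `ℂ`,
given a primitive element (`ThetaAt N κ`)
-/

set_option autoImplicit false

namespace Fermat.Agent.S48G1

open UpperHalfPlane ModularForm MatrixGroups Fermat.Agent.S23

/-- A ring endomorphism of `ℂ` fixes the power series with bounded denominators. -/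
theorem map_eq_of_smul_mem_ZSer (τ : ℂ →+* ℂ) {a : PowerSeries ℂ} {M : ℕ} (hM : 0 < M)
    (ha : (M : ℂ) • a ∈ ZSer) : PowerSeries.map τ a = a := by
  have h1 := map_eq_of_mem_ZSer τ ha
  have hM0 : (M : ℂ) ≠ 0 := by exact_mod_cast hM.ne'
  ext n
  have h2 := congrArg (PowerSeries.coeff n) h1
  simp only [PowerSeries.coeff_map, PowerSeries.coeff_smul, smul_eq_mul, map_mul, map_natCast]
    at h2
  rw [PowerSeries.coeff_map]
  exact mul_left_cancel₀ hM0 h2

/-- Power series with bounded denominators are in `span ℂ ZSer`. -/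
theorem mem_span_ZSer_of_smul_mem_ZSer {a : PowerSeries ℂ} {M : ℕ} (hM : 0 < M)
    (ha : (M : ℂ) • a ∈ ZSer) : a ∈ Submodule.span ℂ ZSer := by
  have hM0 : (M : ℂ) ≠ 0 := by exact_mod_cast hM.ne'
  have h : a = (M : ℂ)⁻¹ • ((M : ℂ) • a) := by
    rw [smul_smul, inv_mul_cancel₀ hM0, one_smul]
  rw [h]
  exact Submodule.smul_mem _ _ (Submodule.subset_span ha)

/-- q-expansion of a polynomial in `θ` with `QA` coefficients. -/
theorem qExpansion_sum_mul_pow (n : ℕ) (d : ℕ → ℍ → ℂ) (θ : ℍ → ℂ)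
    (hd : ∀ m < n, QA (d m)) (hθ : QA θ) :
    qExpansion 1 (∑ m ∈ Finset.range n, d m * θ ^ m) =
      ∑ m ∈ Finset.range n, qExpansion 1 (d m) * qExpansion 1 θ ^ m := by
  rw [QA.qExpansion_sum _ _ fun m hm => (hd m (Finset.mem_range.mp hm)).mul (hθ.pow m)]
  refine Finset.sum_congr rfl fun m hm => ?_
  rw [(hd m (Finset.mem_range.mp hm)).qExpansion_mul (hθ.pow m), hθ.qExpansion_pow]

theorem isMF_sum_mul_pow {N : ℕ} {κ : ℤ} (n : ℕ) (w : ℤ) (d : ℕ → ℍ → ℂ)
    (θ : ModularForm (G1 N) κ) (hd : ∀ m < n, IsMF 𝒮ℒ (w - κ * m) (d m)) :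
    IsMF (G1 N) w (∑ m ∈ Finset.range n, d m * (θ : ℍ → ℂ) ^ m) := by
  refine IsMF.sum _ _ fun m hm => ?_
  have h1 := (hd m (Finset.mem_range.mp hm)).mono (G1_le_SL N)
  exact (h1.mul ((IsMF.of θ).pow m)).cast (by ring)

/-- Stability of q-expansions of cusp forms under ring endomorphisms of `ℂ`. -/
theorem exists_cuspForm_qExpansion_map (N : ℕ) [NeZero N] (κ : ℤ) (hθ : ThetaAt N κ) (k : ℤ)
    (τ : ℂ →+* ℂ) (f : CuspForm (G1 N) k) :
    ∃ f' : CuspForm (G1 N) k, qExpansion 1 f' = PowerSeries.map τ (qExpansion 1 f) := by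
  obtain ⟨θ, ⟨M, hM, hθZ⟩, hθ1, hθ2⟩ := hθ
  obtain ⟨w, n, d, a, hd, ha, hD0, hfD⟩ := exists_certificate N k κ θ hθ1 hθ2 f
  obtain ⟨μ, c, hμ, hc, hmonic⟩ := exists_monic N k f
  have h1 := one_mem_strictPeriods_G1 N
  have hθQA : QA (θ : ℍ → ℂ) := (IsMF.of θ).qa h1
  have hfQA : QA (f : ℍ → ℂ) := (IsCF.of f).isMF.qa h1
  have hdQA : ∀ m < n, QA (d m) := fun m hm => ((hd m hm).mono (G1_le_SL N)).qa h1
  have haQA : ∀ m < n, QA (a m) := fun m hm => ((ha m hm).mono (G1_le_SL N)).qa h1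
  have hcQA : ∀ j < μ, QA (c j) := fun j hj => (((hc j hj).isMF).mono (G1_le_SL N)).qa h1
  -- transport of the level one data
  choose! d' hd' hd'q using fun m (hm : m < n) => exists_isMF_qExpansion_map τ (hd m hm)
  choose! a' ha' ha'q using fun m (hm : m < n) => exists_isMF_qExpansion_map τ (ha m hm)
  choose! c' hc' hc'q using fun j (hj : j < μ) => exists_isCF_qExpansion_map τ (hc j hj)
  have hd'QA : ∀ m < n, QA (d' m) := fun m hm => ((hd' m hm).mono (G1_le_SL N)).qa h1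
  have ha'QA : ∀ m < n, QA (a' m) := fun m hm => ((ha' m hm).mono (G1_le_SL N)).qa h1
  have hc'QA : ∀ j < μ, QA (c' j) := fun j hj => (((hc' j hj).isMF).mono (G1_le_SL N)).qa h1
  have hθτ : PowerSeries.map τ (qExpansion 1 (θ : ℍ → ℂ)) = qExpansion 1 (θ : ℍ → ℂ) :=
    map_eq_of_smul_mem_ZSer τ hM hθZ
  -- the new modular forms
  obtain ⟨Dm, hDm⟩ := isMF_sum_mul_pow n w d' θ hd'
  obtain ⟨Am, hAm⟩ := isMF_sum_mul_pow n (w + k) a' θ ha'
  obtain ⟨D₀, hD₀⟩ := isMF_sum_mul_pow n w d θ hd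
  have hqD : qExpansion 1 (Dm : ℍ → ℂ) =
      PowerSeries.map τ (qExpansion 1 (∑ m ∈ Finset.range n, d m * (θ : ℍ → ℂ) ^ m)) := by
    rw [hDm, qExpansion_sum_mul_pow n d' θ hd'QA hθQA, qExpansion_sum_mul_pow n d θ hdQA hθQA,
      map_sum]
    refine Finset.sum_congr rfl fun m hm => ?_
    rw [map_mul, map_pow, hθτ, hd'q m (Finset.mem_range.mp hm)]
  have hqA : qExpansion 1 (Am : ℍ → ℂ) =
      PowerSeries.map τ (qExpansion 1 (∑ m ∈ Finset.range n, a m * (θ : ℍ → ℂ) ^ m)) := by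
    rw [hAm, qExpansion_sum_mul_pow n a' θ ha'QA hθQA, qExpansion_sum_mul_pow n a θ haQA hθQA,
      map_sum]
    refine Finset.sum_congr rfl fun m hm => ?_
    rw [map_mul, map_pow, hθτ, ha'q m (Finset.mem_range.mp hm)]
  have hDQA : QA (∑ m ∈ Finset.range n, d m * (θ : ℍ → ℂ) ^ m) :=
    QA.sum _ _ fun m hm => (hdQA m (Finset.mem_range.mp hm)).mul (hθQA.pow m)
  have hτinj : Function.Injective (PowerSeries.map τ) := by
    intro x y hxy
    ext i
    have := congrArg (PowerSeries.coeff i) hxy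
    simp only [PowerSeries.coeff_map] at this
    exact τ.injective this
  -- `Dm ≠ 0`
  have hDm0 : Dm ≠ 0 := by
    intro h
    have h2 : qExpansion 1 (Dm : ℍ → ℂ) = 0 := by
      rw [h]; exact (ModularForm.qExpansion_eq_zero_iff one_pos h1 (0 : ModularForm (G1 N) w)).mpr rfl
    rw [hqD] at h2
    have h3 : qExpansion 1 (∑ m ∈ Finset.range n, d m * (θ : ℍ → ℂ) ^ m) = 0 :=
      hτinj (by rw [h2, map_zero])
    rw [← hD₀] at h3
    have h4 := (ModularForm.qExpansion_eq_zero_iff one_pos h1 D₀).mp h3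
    apply hD0
    rw [← hD₀, h4]
    rfl
  -- the relation `f₀ * qExp Dm = qExp Am`
  have hrel : PowerSeries.map τ (qExpansion 1 (f : ℍ → ℂ)) * qExpansion 1 (Dm : ℍ → ℂ) =
      qExpansion 1 (Am : ℍ → ℂ) := by
    rw [hqD, hqA, ← map_mul, ← hfQA.qExpansion_mul hDQA, hfD]
  -- the monic equation
  have hmon : PowerSeries.map τ (qExpansion 1 (f : ℍ → ℂ)) ^ μ +
      ∑ j ∈ Finset.range μ, qExpansion 1 (c' j) *
        PowerSeries.map τ (qExpansion 1 (f : ℍ → ℂ)) ^ j = 0 := by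
    have h5 := congrArg (qExpansion 1) hmonic
    rw [(hfQA.pow μ).qExpansion_add
      (QA.sum _ _ fun j hj => (hcQA j (Finset.mem_range.mp hj)).mul (hfQA.pow j)),
      hfQA.qExpansion_pow,
      QA.qExpansion_sum _ _ fun j hj => (hcQA j (Finset.mem_range.mp hj)).mul (hfQA.pow j),
      UpperHalfPlane.qExpansion_zero] at h5
    have h6 := congrArg (PowerSeries.map τ) h5
    rw [map_add, map_pow, map_sum, map_zero] at h6
    rw [← h6]
    congr 1
    refine Finset.sum_congr rfl fun j hj => ?_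
    rw [(hcQA j (Finset.mem_range.mp hj)).qExpansion_mul (hfQA.pow j), hfQA.qExpansion_pow,
      map_mul, map_pow, hc'q j (Finset.mem_range.mp hj)]
  exact exists_cuspForm_of_certificates N k w Dm hDm0 Am _ hrel μ hμ c' hc' hmon

end Fermat.Agent.S48G1
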