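import Fermat.Agent.S23.BoundedDenom
import Fermat.Agent.S48.G1.StabilityMap

/-!
# S48 PORT of S23/BoundedDenomMF.lean (owner of the original: helper40; port: helper15):
bounded denominators for cusp forms on `Γ₁(N)` with rational q-expansion, given `ThetaAt N κ`

Proof sketch.  Take `θ` from `exists_theta`, the certificate `f * D = A`
(`exists_certificate`, `D = ∑ d m * θ^m`, `A = ∑ a m * θ^m`, `d m`, `a m` level one) and the monic
equation `f^n + ∑ c j * f^j = 0` (`exists_monic`).  Pass to q-expansions with the `QA` calculus of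
`MF.lean` (`IsMF.qa`, `QA.qExpansion_mul`, ...; all functions involved are `IsMF` for `G1 N`, use
`IsMF.mono (G1_le_SL N)` and `one_mem_strictPeriods_G1`).  `qExp D ≠ 0` since `D ≠ 0`
(`ModularForm.qExpansion_eq_zero_iff`).  `qExp (d m)`, `qExp (a m)`, `qExp (c j)` are in
`span ℂ ZSer` (`qExpansion_mem_span_ZSer`), `qExp θ ∈ ZSer`, and `span ℂ ZSer` is closed under
multiplication.  Then apply `exists_nat_smul_mem_ZSer`.
-/

set_option autoImplicit false

namespace Fermat.Agent.S48G1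

open UpperHalfPlane ModularForm MatrixGroups Fermat.Agent.S23

/-- Powers of elements of `span ℂ ZSer` stay in `span ℂ ZSer`. -/
theorem pow_mem_span_ZSer {a : PowerSeries ℂ} (ha : a ∈ Submodule.span ℂ ZSer) (n : ℕ) :
    a ^ n ∈ Submodule.span ℂ ZSer := by
  induction n with
  | zero => simpa using one_mem_span_ZSer
  | succ n ih => rw [pow_succ]; exact mul_mem_span_ZSer ih ha

/-- A polynomial in an element of `span ℂ ZSer` with coefficients in `span ℂ ZSer` is in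
`span ℂ ZSer`. -/
theorem sum_mul_pow_mem_span_ZSer (n : ℕ) (d : ℕ → PowerSeries ℂ) (t : PowerSeries ℂ)
    (hd : ∀ m < n, d m ∈ Submodule.span ℂ ZSer) (ht : t ∈ Submodule.span ℂ ZSer) :
    ∑ m ∈ Finset.range n, d m * t ^ m ∈ Submodule.span ℂ ZSer :=
  Submodule.sum_mem _ fun m hm =>
    mul_mem_span_ZSer (hd m (Finset.mem_range.mp hm)) (pow_mem_span_ZSer ht m)

/-- Bounded denominators. -/
theorem exists_nat_smul_qExpansion_mem_ZSer (N : ℕ) [NeZero N] (κ : ℤ) (hθ : ThetaAt N κ)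
    (k : ℤ) (f : CuspForm (G1 N) k) (hf : qExpansion 1 f ∈ QSer) :
    ∃ M : ℕ, 0 < M ∧ (M : ℂ) • qExpansion 1 f ∈ ZSer := by
  obtain ⟨θ, ⟨M₀, hM₀, hθZ⟩, hθ1, hθ2⟩ := hθ
  obtain ⟨w, n, d, a, hd, ha, hD0, hfD⟩ := exists_certificate N k κ θ hθ1 hθ2 f
  obtain ⟨μ, c, hμ, hc, hmonic⟩ := exists_monic N k f
  have h1 := one_mem_strictPeriods_G1 N
  have hθQA : QA (θ : ℍ → ℂ) := (IsMF.of θ).qa h1
  have hfQA : QA (f : ℍ → ℂ) := (IsCF.of f).isMF.qa h1
  have hdQA : ∀ m < n, QA (d m) := fun m hm => ((hd m hm).mono (G1_le_SL N)).qa h1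
  have haQA : ∀ m < n, QA (a m) := fun m hm => ((ha m hm).mono (G1_le_SL N)).qa h1
  have hcQA : ∀ j < μ, QA (c j) := fun j hj => (((hc j hj).isMF).mono (G1_le_SL N)).qa h1
  have hθS : qExpansion 1 (θ : ℍ → ℂ) ∈ Submodule.span ℂ ZSer :=
    mem_span_ZSer_of_smul_mem_ZSer hM₀ hθZ
  have hDQA : QA (∑ m ∈ Finset.range n, d m * (θ : ℍ → ℂ) ^ m) :=
    QA.sum _ _ fun m hm => (hdQA m (Finset.mem_range.mp hm)).mul (hθQA.pow m)
  obtain ⟨D₀, hD₀⟩ := isMF_sum_mul_pow n w d θ hd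
  -- `qExp D ≠ 0`
  have hqD0 : qExpansion 1 (∑ m ∈ Finset.range n, d m * (θ : ℍ → ℂ) ^ m) ≠ 0 := by
    intro h3
    rw [← hD₀] at h3
    have h4 := (ModularForm.qExpansion_eq_zero_iff one_pos h1 D₀).mp h3
    apply hD0
    rw [← hD₀, h4]
    rfl
  have hqD : qExpansion 1 (∑ m ∈ Finset.range n, d m * (θ : ℍ → ℂ) ^ m) ∈
      Submodule.span ℂ ZSer := by
    rw [qExpansion_sum_mul_pow n d θ hdQA hθQA]
    exact sum_mul_pow_mem_span_ZSer n _ _
      (fun m hm => qExpansion_mem_span_ZSer (hd m hm)) hθS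
  have hqA : qExpansion 1 (∑ m ∈ Finset.range n, a m * (θ : ℍ → ℂ) ^ m) ∈
      Submodule.span ℂ ZSer := by
    rw [qExpansion_sum_mul_pow n a θ haQA hθQA]
    exact sum_mul_pow_mem_span_ZSer n _ _
      (fun m hm => qExpansion_mem_span_ZSer (ha m hm)) hθS
  have hrel : qExpansion 1 (f : ℍ → ℂ) *
      qExpansion 1 (∑ m ∈ Finset.range n, d m * (θ : ℍ → ℂ) ^ m) =
      qExpansion 1 (∑ m ∈ Finset.range n, a m * (θ : ℍ → ℂ) ^ m) := by
    rw [← hfQA.qExpansion_mul hDQA, hfD]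
  have hmon : qExpansion 1 (f : ℍ → ℂ) ^ μ +
      ∑ j ∈ Finset.range μ, qExpansion 1 (c j) * qExpansion 1 (f : ℍ → ℂ) ^ j = 0 := by
    have h5 := congrArg (qExpansion 1) hmonic
    rw [(hfQA.pow μ).qExpansion_add
      (QA.sum _ _ fun j hj => (hcQA j (Finset.mem_range.mp hj)).mul (hfQA.pow j)),
      hfQA.qExpansion_pow,
      QA.qExpansion_sum _ _ fun j hj => (hcQA j (Finset.mem_range.mp hj)).mul (hfQA.pow j),
      UpperHalfPlane.qExpansion_zero] at h5
    rw [← h5]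
    congr 1
    refine Finset.sum_congr rfl fun j hj => ?_
    rw [(hcQA j (Finset.mem_range.mp hj)).qExpansion_mul (hfQA.pow j), hfQA.qExpansion_pow]
  exact exists_nat_smul_mem_ZSer (qExpansion 1 (f : ℍ → ℂ)) hf _ _ hqD0 hqD hqA hrel μ
    (fun j => qExpansion 1 (c j)) (fun j hj => qExpansion_mem_span_ZSer (hc j hj).isMF) hmon

end Fermat.Agent.S48G1
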