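import Fermat.Agent.S48.G1.Defs
import Fermat.Prelude.Thm_ModularForm_sturm_bound_of_isArithmetic

/-!
# S48 PORT of S23/FiniteDim.lean (owner of the original: helper40; port: helper15):
the q-expansion map on cusp forms of level `Γ₁(N)` is linear and injective, and the space is
finite-dimensional (Sturm bound from the Prelude: `ModularForm.sturm_bound_of_isArithmetic`).
-/

set_option autoImplicit false

namespace Fermat.Agent.S48G1

open UpperHalfPlane ModularForm MatrixGroups Fermat.Agent.S23

/-- The q-expansion as a `ℂ`-linear map. -/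
noncomputable def qExpLin (N : ℕ) (k : ℤ) : CuspForm (G1 N) k →ₗ[ℂ] PowerSeries ℂ where
  toFun f := qExpansion 1 f
  map_add' f g := by
    rw [FunLike.coe_add]
    exact ModularForm.qExpansion_add one_pos (one_mem_strictPeriods_G1 N) f g
  map_smul' c f := by
    rw [FunLike.coe_smul]
    exact ModularForm.qExpansion_smul one_pos (one_mem_strictPeriods_G1 N) c f

@[simp] theorem qExpLin_apply (N : ℕ) (k : ℤ) (f : CuspForm (G1 N) k) :
    qExpLin N k f = qExpansion 1 f := rfl

theorem qExpLin_injective (N : ℕ) [NeZero N] (k : ℤ) : Function.Injective (qExpLin N k) := by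
  rw [← LinearMap.ker_eq_bot, LinearMap.ker_eq_bot']
  intro f hf
  rw [qExpLin_apply] at hf
  have h := (ModularForm.qExpansion_eq_zero_iff one_pos (one_mem_strictPeriods_G1 N)
    (ModularFormClass.modularForm f)).mp hf
  ext z
  have := congrArg (fun F : ModularForm (G1 N) k => F z) h
  simpa using this

/-- The truncated q-expansion map. -/
noncomputable def qExpTrunc (N : ℕ) (k : ℤ) (B : ℕ) :
    CuspForm (G1 N) k →ₗ[ℂ] (Fin (B + 1) → ℂ) where
  toFun f n := (qExpansion 1 f).coeff n
  map_add' f g := by
    funext n
    change (qExpansion 1 (f + g)).coeff n = (qExpansion 1 f).coeff n + (qExpansion 1 g).coeff n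
    rw [ModularForm.qExpansion_add one_pos (one_mem_strictPeriods_G1 N) f g, map_add]
  map_smul' c f := by
    funext n
    change (qExpansion 1 (c • f)).coeff n = c • (qExpansion 1 f).coeff n
    rw [ModularForm.qExpansion_smul one_pos (one_mem_strictPeriods_G1 N) c f,
      PowerSeries.coeff_smul]

theorem qExpTrunc_injective (N : ℕ) [NeZero N] (k : ℤ) :
    Function.Injective
      (qExpTrunc N k ((k * (G1 N).relIndex 𝒮ℒ).toNat / 12)) := by
  rw [← LinearMap.ker_eq_bot, LinearMap.ker_eq_bot']
  intro f hf
  have h : (ModularFormClass.modularForm f : ModularForm (G1 N) k) = 0 := by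
    refine ModularForm.sturm_bound_of_isArithmetic (one_mem_strictPeriods_G1 N) ?_
    refine lt_of_lt_of_le (by exact_mod_cast Nat.lt_succ_self _)
      (PowerSeries.nat_le_order _ _ fun n hn ↦ ?_)
    have := congrFun hf ⟨n, hn⟩
    simpa [qExpTrunc] using this
  ext z
  have := congrArg (fun F : ModularForm (G1 N) k => F z) h
  simpa using this

instance finiteDimensional_cuspForm (N : ℕ) [NeZero N] (k : ℤ) :
    FiniteDimensional ℂ (CuspForm (G1 N) k) :=
  Module.Finite.of_injective _ (qExpTrunc_injective N k)

end Fermat.Agent.S48G1
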