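import Fermat.Agent.S48.G1.BoundedDenomMF
import Fermat.Agent.S48.G1.FiniteDim
import Fermat.Agent.S23.Descent
import Fermat.Agent.S48.Defs

/-!
# S48 PORT of S23/Main.lean (owner of the original: helper33; port: helper15):
integral structure of `S_k(Γ₁(N))` given a primitive element, and
`intStruct_of_theta : ThetaStatement → Fermat.Agent.S48.IntStructStatement`.

Proof sketch (as in S23).  `V := LinearMap.range (qExpLin N k)` is finite-dimensional and stable
under `PowerSeries.map τ` (`exists_cuspForm_qExpansion_map`), so by `le_span_inter_QSer_of_map_mem`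
`V ≤ span ℂ (V ∩ QSer)`.  If `v = qExpLin g ∈ QSer`, then by `exists_nat_smul_qExpansion_mem_ZSer`
`M • g` has integral q-expansion for some `M > 0`.  For `N ≤ 2`: `-1 ∈ Γ₁(N)`, so the forms of odd
weight vanish.
-/

set_option autoImplicit false

namespace Fermat.Agent.S48G1

open UpperHalfPlane ModularForm MatrixGroups Fermat.Agent.S23

/-- The cusp forms on `Γ₁(N)` with integral `q`-coefficients. -/
def intSet (N : ℕ) (k : ℤ) : Set (CuspForm (G1 N) k) :=
  {g | ∀ n : ℕ, ∃ m : ℤ, ModularFormClass.qCoeff g n = (m : ℂ)}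

/-- A cusp form whose q-expansion is integral lies in `intSet`. -/
theorem mem_intSet_of_qExpansion_mem_ZSer (N : ℕ) (k : ℤ) (g : CuspForm (G1 N) k)
    (hg : qExpansion 1 g ∈ ZSer) : g ∈ intSet N k := by
  intro n
  obtain ⟨P, hP⟩ := hg
  refine ⟨PowerSeries.coeff n P, ?_⟩
  change (qExpansion 1 g).coeff n = _
  rw [← hP, PowerSeries.coeff_map]
  rfl

/-- **Integral structure** on `S_k(Γ₁(N))`, any weight, given a primitive element. -/
theorem mem_span_intSet (N : ℕ) [NeZero N] (κ : ℤ) (hθ : ThetaAt N κ) (k : ℤ)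
    (f : CuspForm (G1 N) k) : f ∈ Submodule.span ℂ (intSet N k) := by
  have hV : ∀ τ : ℂ →+* ℂ, ∀ v ∈ LinearMap.range (qExpLin N k),
      PowerSeries.map τ v ∈ LinearMap.range (qExpLin N k) := by
    rintro τ _ ⟨g, rfl⟩
    obtain ⟨g', hg'⟩ := exists_cuspForm_qExpansion_map N κ hθ k τ g
    exact ⟨g', hg'⟩
  have h1 := le_span_inter_QSer_of_map_mem (LinearMap.range (qExpLin N k)) hV
  have h2 : Submodule.span ℂ (((LinearMap.range (qExpLin N k) :
        Submodule ℂ (PowerSeries ℂ)) : Set (PowerSeries ℂ)) ∩ QSer) ≤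
      Submodule.map (qExpLin N k) (Submodule.span ℂ (intSet N k)) := by
    rw [Submodule.span_le]
    rintro _ ⟨⟨g, rfl⟩, hq⟩
    obtain ⟨M, hM, hMZ⟩ := exists_nat_smul_qExpansion_mem_ZSer N κ hθ k g hq
    refine ⟨g, ?_, rfl⟩
    have hMg : (M : ℂ) • g ∈ intSet N k := by
      refine mem_intSet_of_qExpansion_mem_ZSer N k _ ?_
      have : qExpansion 1 (((M : ℂ) • g : CuspForm (G1 N) k) : ℍ → ℂ) =
          (M : ℂ) • qExpansion 1 g := (qExpLin N k).map_smul (M : ℂ) g
      rw [this]
      exact hMZ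
    have hM0 : (M : ℂ) ≠ 0 := by exact_mod_cast hM.ne'
    have hg : g = (M : ℂ)⁻¹ • ((M : ℂ) • g) := by
      rw [smul_smul, inv_mul_cancel₀ hM0, one_smul]
    rw [hg]
    exact Submodule.smul_mem _ _ (Submodule.subset_span hMg)
  obtain ⟨f', hf', hff'⟩ := h2 (h1 ⟨f, rfl⟩)
  have := qExpLin_injective N k hff'
  rw [← this]
  exact hf'

/-- For `N ∣ 2` the matrix `-1` is in `Γ₁(N)`. -/
theorem neg_one_mem_G1 (N : ℕ) (hN : N ∣ 2) : (-1 : GL (Fin 2) ℝ) ∈ G1 N := by
  refine ⟨-1, ?_, ?_⟩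
  · rw [SetLike.mem_coe, CongruenceSubgroup.Gamma1_mem]
    have h2 : (2 : ZMod N) = 0 := by
      have : ((2 : ℕ) : ZMod N) = 0 := (ZMod.natCast_eq_zero_iff 2 N).mpr hN
      exact_mod_cast this
    have h1 : (-1 : ZMod N) = 1 := by linear_combination -h2
    simp [h1]
  · ext i j
    simp

/-- For `N ∣ 2` there are no nonzero cusp forms of odd weight on `Γ₁(N)`. -/
theorem cuspForm_eq_zero_of_dvd_two (N : ℕ) (hN : N ∣ 2) {k : ℤ} (hk : Odd k)
    (f : CuspForm (G1 N) k) : f = 0 := by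
  have h := ModularForm.eq_zero_of_neg_one_mem (neg_one_mem_G1 N hN) hk
    (ModularFormClass.modularForm f)
  ext z
  have := congrArg (fun F : ModularForm (G1 N) k => F z) h
  simpa using this

/-- **(PORT)** the integral structure of `S₁(Γ₁(N))` from the primitive elements. -/
theorem intStruct_of_theta (hθ : ThetaStatement) : Fermat.Agent.S48.IntStructStatement := by
  intro N _ f
  by_cases hN : 3 ≤ N
  · obtain ⟨κ, hκ⟩ := hθ N hN
    exact mem_span_intSet N κ hκ 1 f
  · have hN0 : N ≠ 0 := NeZero.ne N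
    have hdvd : N ∣ 2 := by
      have : N = 1 ∨ N = 2 := by omega
      rcases this with rfl | rfl
      · exact one_dvd 2
      · exact dvd_refl 2
    have hf : f = 0 := cuspForm_eq_zero_of_dvd_two N hdvd (by decide) f
    rw [hf]
    exact Submodule.zero_mem _

end Fermat.Agent.S48G1
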