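import Fermat.Agent.S48.G1.Defs

/-!
# S48 THETA1 (helper92): definitions

A primitive element for `Γ₁(N)`, `N ≥ 3`, of weight `3`:

* `Sr N a = ∑_{n ≡ a mod N, n ≠ 0} n⁻³` (real; odd in `a`),
* `wlat N w τ = ∑_{v ∈ ℤ²} w (v mod N) (v₀ τ + v₁)⁻³` (weighted lattice sum, any weight function),
* `wTheta N a = [a₀ = 0] · Sr N a₁`, `bigTheta N = wlat N (wTheta N)`, `c0 N = ∑_a Sr N a ^ 2`.

`θ = bigTheta / c0`.  The limits of the translates of `bigTheta` are `∑_{a c = 0} Sr (a a_γ) Sr a ≤ c0`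
(Cauchy–Schwarz), with equality iff `γ ∈ Γ₁(N)` (`Sr 1` is the strict maximum of `Sr`).
-/

set_option autoImplicit false

noncomputable section

namespace Fermat.Agent.S48G1.Theta

open UpperHalfPlane EisensteinSeries

/-- `∑_{n ≡ a mod N, n ≠ 0} n⁻³`. -/
def Sr (N : ℕ) (a : ZMod N) : ℝ :=
  ∑' n : ℤ, if (n : ZMod N) = a then ((n : ℝ) ^ 3)⁻¹ else 0

/-- the weighted lattice sum of weight `3` with weight function `w` on `(ℤ/N)²`. -/
def wlat (N : ℕ) (w : (Fin 2 → ZMod N) → ℂ) (τ : ℍ) : ℂ :=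
  ∑' v : Fin 2 → ℤ, w ((↑) ∘ v) * eisSummand 3 v τ

/-- the weight function of `Θ`: supported on `a₀ = 0`, with value the constant term `Sr a₁`. -/
def wTheta (N : ℕ) (a : Fin 2 → ZMod N) : ℂ :=
  if a 0 = 0 then ((Sr N (a 1) : ℝ) : ℂ) else 0

/-- `Θ = ∑_{N ∣ m} Sr(n) (m τ + n)⁻³`. -/
def bigTheta (N : ℕ) (τ : ℍ) : ℂ := wlat N (wTheta N) τ

/-- the constant term of `Θ`. -/
def c0 (N : ℕ) [NeZero N] : ℝ := ∑ a : ZMod N, Sr N a ^ 2

end Fermat.Agent.S48G1.Theta
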