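import Fermat.Agent.S48.G1.ThetaQExpIface

/-!
# S48 THETA1 (B), helper1: `Dk N k = -(4 π³ i / 3) B₃(k / N)` (H2)
-/

set_option autoImplicit false
set_option linter.unusedSectionVars false

noncomputable section

namespace Fermat.Agent.S48G1.ThetaQ

open Fermat.Agent.S48G1.Theta Complex

variable (N : ℕ) [NeZero N]

theorem bern3_eval (x : ℝ) :
    (Polynomial.map (algebraMap ℚ ℝ) (Polynomial.bernoulli 3)).eval x = bern3 x := by
  have h0 : _root_.bernoulli 0 = 1 := bernoulli_zero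
  have h1 : _root_.bernoulli 1 = -1 / 2 := bernoulli_one
  have h2 : _root_.bernoulli 2 = 6⁻¹ := bernoulli_two
  have h3 : _root_.bernoulli 3 = 0 := by
    rw [bernoulli_eq_bernoulli'_of_ne_one (by norm_num), bernoulli'_three]
  unfold bern3
  simp only [Polynomial.bernoulli, Finset.sum_range_succ, Finset.sum_range_zero, h0, h1, h2, h3]
  simp [Nat.choose]
  ring

/-- the sine series of `B₃`. -/
theorem tsum_sin_eq (x : ℝ) (hx : x ∈ Set.Icc (0 : ℝ) 1) :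
    ∑' n : ℕ, 1 / (n : ℝ) ^ 3 * Real.sin (2 * Real.pi * n * x) =
      (2 * Real.pi) ^ 3 / 12 * bern3 x := by
  have h := (hasSum_one_div_nat_pow_mul_sin (k := 1) one_ne_zero hx).tsum_eq
  rw [show 2 * 1 + 1 = 3 by norm_num, bern3_eval] at h
  rw [h]
  have hfac : ((Nat.factorial 3 : ℕ) : ℝ) = 6 := by norm_num [Nat.factorial]
  rw [hfac]
  ring

theorem norm_chr (k : ZMod N) (n : ℤ) : ‖chr N k n‖ = 1 := by
  rw [chr_eq]
  have h : 2 * (Real.pi : ℂ) * I * ((-(n * (k.val : ℤ)) : ℤ) : ℂ) / (N : ℂ) =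
      ((2 * Real.pi * ((-(n * (k.val : ℤ)) : ℤ) : ℝ) / (N : ℝ) : ℝ) : ℂ) * I := by
    push_cast
    ring
  rw [h]
  exact Complex.norm_exp_ofReal_mul_I _

/-- the summand of the Fourier transform of `Sr`. -/
def gk (k : ZMod N) (n : ℤ) : ℂ := chr N k n * ((n : ℂ) ^ 3)⁻¹

theorem summable_gk (k : ZMod N) : Summable (gk N k) := by
  refine Summable.of_norm_bounded (summable_inv_cube_int.norm) fun n => ?_
  unfold gk
  rw [norm_mul, norm_chr, one_mul, norm_inv, norm_inv, norm_pow, norm_pow]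
  simp

theorem gk_add (k : ZMod N) (n : ℕ) :
    gk N k (n : ℤ) + gk N k (-(n : ℤ)) =
      -(2 * I) * ((1 / (n : ℝ) ^ 3 *
        Real.sin (2 * Real.pi * n * ((k.val : ℝ) / (N : ℝ))) : ℝ) : ℂ) := by
  unfold gk
  rw [chr_eq, chr_eq]
  set θ : ℂ := ((2 * Real.pi * n * ((k.val : ℝ) / (N : ℝ)) : ℝ) : ℂ) with hθ
  have e1 : 2 * (Real.pi : ℂ) * I * ((-(((n : ℕ) : ℤ) * (k.val : ℤ)) : ℤ) : ℂ) / (N : ℂ) =
      -θ * I := by
    rw [hθ]; push_cast; ring
  have e2 : 2 * (Real.pi : ℂ) * I * ((-(-((n : ℕ) : ℤ) * (k.val : ℤ)) : ℤ) : ℂ) / (N : ℂ) =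
      θ * I := by
    rw [hθ]; push_cast; ring
  rw [e1, e2]
  have hsin : Complex.sin θ = (cexp (-θ * I) - cexp (θ * I)) * I / 2 := rfl
  have hs : ((Real.sin (2 * Real.pi * n * ((k.val : ℝ) / (N : ℝ))) : ℝ) : ℂ) = Complex.sin θ := by
    rw [hθ, Complex.ofReal_sin]
  have hI : I * I = -1 := Complex.I_mul_I
  rw [Complex.ofReal_mul, hs, hsin]
  push_cast
  have hn3 : ((-(n : ℂ)) ^ 3)⁻¹ = -((n : ℂ) ^ 3)⁻¹ := by
    rw [Odd.neg_pow (by decide), inv_neg]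
  rw [hn3]
  have : -(2 * I) * (1 / (n : ℂ) ^ 3 * ((cexp (-θ * I) - cexp (θ * I)) * I / 2)) =
      (cexp (-θ * I) - cexp (θ * I)) * ((n : ℂ) ^ 3)⁻¹ * (-(I * I)) := by
    ring
  rw [this, hI]
  ring

/-- **(H2)**. -/
theorem dkBern : DkBern N := by
  intro k
  have hD : Dk N k = ∑' n : ℤ, gk N k n := dft_Sr_eq_tsum N k
  have hsplit := tsum_int_eq_zero_add_tsum_pnat (summable_gk N k)
  have h0 : gk N k 0 = 0 := by
    unfold gk
    simp
  have hs1 : Summable fun n : ℕ+ => gk N k ((n : ℕ) : ℤ) :=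
    (summable_gk N k).comp_injective fun a b h => by
      have : ((a : ℕ) : ℤ) = ((b : ℕ) : ℤ) := h
      exact PNat.coe_injective (by exact_mod_cast this)
  have hs2 : Summable fun n : ℕ+ => gk N k (-((n : ℕ) : ℤ)) :=
    (summable_gk N k).comp_injective fun a b h => by
      have : -((a : ℕ) : ℤ) = -((b : ℕ) : ℤ) := h
      exact PNat.coe_injective (by exact_mod_cast neg_injective this)
  have hx : ((k.val : ℝ) / (N : ℝ)) ∈ Set.Icc (0 : ℝ) 1 := by
    have hN : (0 : ℝ) < N := by exact_mod_cast Nat.pos_of_ne_zero (NeZero.ne N)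
    constructor
    · positivity
    · rw [div_le_one hN]
      exact_mod_cast (ZMod.val_lt k).le
  rw [hD, hsplit, h0, zero_add, ← hs1.tsum_add hs2]
  have hterm : ∀ n : ℕ+, gk N k ((n : ℕ) : ℤ) + gk N k (-((n : ℕ) : ℤ)) =
      -(2 * I) * ((1 / ((n : ℕ) : ℝ) ^ 3 *
        Real.sin (2 * Real.pi * (n : ℕ) * ((k.val : ℝ) / (N : ℝ))) : ℝ) : ℂ) :=
    fun n => gk_add N k n
  rw [tsum_congr hterm, tsum_mul_left, ← Complex.ofReal_tsum,
    tsum_pnat_eq_tsum_of_eq_zero (f := fun n : ℕ => 1 / (n : ℝ) ^ 3 *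
        Real.sin (2 * Real.pi * n * ((k.val : ℝ) / (N : ℝ)))) (by simp),
    tsum_sin_eq _ hx]
  push_cast
  ring

end Fermat.Agent.S48G1.ThetaQ
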