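import Fermat.Agent.S48.G1.ThetaQExpCls2

/-!
# S48 THETA1 (B), helper1: `Θ = ∑_a Sr(a) · (lattice sum over the class (0, a))`
-/

set_option autoImplicit false
set_option linter.unusedSectionVars false

noncomputable section

namespace Fermat.Agent.S48G1.ThetaQ

open Fermat.Agent.S48G1.Theta

open EisensteinSeries Complex

open UpperHalfPlane hiding I

variable (N : ℕ) [NeZero N]

theorem wTheta_mul_eq (τ : ℍ) (v : Fin 2 → ℤ) :
    wTheta N ((↑) ∘ v) * eisSummand 3 v τ =
      ∑ a : ZMod N, ((Sr N a : ℝ) : ℂ) *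
        (Set.range (clsVec N a)).indicator (fun v => eisSummand 3 v τ) v := by
  classical
  unfold wTheta
  by_cases h0 : ((v 0 : ℤ) : ZMod N) = 0
  · rw [if_pos (by simpa using h0)]
    rw [Finset.sum_eq_single ((v 1 : ℤ) : ZMod N)]
    · rw [Set.indicator_of_mem ((mem_range_clsVec N _ v).mpr ⟨h0, rfl⟩)]
      rfl
    · intro b _ hb
      rw [Set.indicator_of_notMem, mul_zero]
      intro hmem
      exact hb ((mem_range_clsVec N b v).mp hmem).2.symm
    · intro h
      exact absurd (Finset.mem_univ _) h
  · rw [if_neg (by simpa using h0), zero_mul]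
    symm
    refine Finset.sum_eq_zero fun b _ => ?_
    rw [Set.indicator_of_notMem, mul_zero]
    intro hmem
    exact h0 ((mem_range_clsVec N b v).mp hmem).1

theorem tsum_indicator_cls (a : ZMod N) (τ : ℍ) :
    ∑' v : Fin 2 → ℤ, (Set.range (clsVec N a)).indicator (fun v => eisSummand 3 v τ) v =
      clsSum N a τ := by
  unfold clsSum
  rw [← (clsVec_injective N a).tsum_eq (f := (Set.range (clsVec N a)).indicator
    (fun v => eisSummand 3 v τ))]
  · refine tsum_congr fun p => ?_
    rw [Set.indicator_of_mem (Set.mem_range_self p)]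
  · exact Set.support_indicator_subset

theorem summable_indicator_cls (a : ZMod N) (τ : ℍ) :
    Summable fun v : Fin 2 → ℤ =>
      (Set.range (clsVec N a)).indicator (fun v => eisSummand 3 v τ) v :=
  ((summable_norm_eisSummand (k := 3) le_rfl τ).of_norm).indicator _

/-- `Θ` as a combination of the lattice sums over the classes `(0, a)`. -/
theorem bigTheta_eq_sum (τ : ℍ) :
    bigTheta N τ = ∑ a : ZMod N, ((Sr N a : ℝ) : ℂ) * clsSum N a τ := by
  unfold bigTheta wlat
  rw [tsum_congr (wTheta_mul_eq N τ)]
  rw [Summable.tsum_finsetSum fun a _ => (summable_indicator_cls N a τ).mul_left _]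
  refine Finset.sum_congr rfl fun a _ => ?_
  rw [tsum_mul_left, tsum_indicator_cls]

end Fermat.Agent.S48G1.ThetaQ
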