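import Fermat.Agent.S48.G1.ThetaQExpIface
import Fermat.Agent.S48.G1.ThetaQExpSum

/-!
# S48 THETA1 (B), helper1: the `q`-expansion of `Θ` (H1)
-/

set_option autoImplicit false
set_option linter.unusedSectionVars false

noncomputable section

namespace Fermat.Agent.S48G1.ThetaQ

open Fermat.Agent.S48G1.Theta Complex

open UpperHalfPlane hiding I

variable (N : ℕ) [NeZero N]

theorem eR_neg_pow (a : ZMod N) (d : ℕ) :
    eR (-((a.val : ℝ) / (N : ℝ))) ^ d = ZMod.stdAddChar (N := N) (-(a * (d : ZMod N))) := by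
  have h : (-(a * (d : ZMod N))) = (((-((a.val : ℤ) * (d : ℤ)) : ℤ)) : ZMod N) := by
    push_cast
    rw [ZMod.natCast_zmod_val]
  rw [h, ZMod.stdAddChar_coe]
  unfold eR
  rw [← Complex.exp_nat_mul]
  congr 1
  push_cast
  ring

theorem eR_pow (a : ZMod N) (d : ℕ) :
    eR ((a.val : ℝ) / (N : ℝ)) ^ d = ZMod.stdAddChar (N := N) (-(a * (-(d : ZMod N)))) := by
  have h : (-(a * (-(d : ZMod N)))) = ((((a.val : ℤ) * (d : ℤ) : ℤ)) : ZMod N) := by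
    push_cast
    rw [ZMod.natCast_zmod_val]
    ring
  rw [h, ZMod.stdAddChar_coe]
  unfold eR
  rw [← Complex.exp_nat_mul]
  congr 1
  push_cast
  ring

theorem sum_Sr_eR (d : ℕ) :
    ∑ a : ZMod N, ((Sr N a : ℝ) : ℂ) *
      (eR ((a.val : ℝ) / (N : ℝ)) ^ d - eR (-((a.val : ℝ) / (N : ℝ))) ^ d) =
      -2 * Dk N (d : ZMod N) := by
  have h1 : ∑ a : ZMod N, ((Sr N a : ℝ) : ℂ) * eR ((a.val : ℝ) / (N : ℝ)) ^ d =
      Dk N (-(d : ZMod N)) := by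
    unfold Dk
    refine Finset.sum_congr rfl fun a _ => ?_
    rw [eR_pow, mul_comm]
  have h2 : ∑ a : ZMod N, ((Sr N a : ℝ) : ℂ) * eR (-((a.val : ℝ) / (N : ℝ))) ^ d =
      Dk N (d : ZMod N) := by
    unfold Dk
    refine Finset.sum_congr rfl fun a _ => ?_
    rw [eR_neg_pow, mul_comm]
  simp only [mul_sub, Finset.sum_sub_distrib]
  rw [h1, h2, Dk_neg]
  ring

theorem sum_Sr_divSum (e : ℕ) :
    ∑ a : ZMod N, ((Sr N a : ℝ) : ℂ) *
      (divSum (fE ((a.val : ℝ) / (N : ℝ))) e - divSum (fE (-((a.val : ℝ) / (N : ℝ)))) e) =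
      ∑ d ∈ e.divisors, (d : ℂ) ^ 2 * (-2 * Dk N ((d : ℕ) : ZMod N)) := by
  unfold divSum fE
  simp only [← Finset.sum_sub_distrib, Finset.mul_sum]
  rw [Finset.sum_comm]
  refine Finset.sum_congr rfl fun d _ => ?_
  rw [← sum_Sr_eR, Finset.mul_sum]
  refine Finset.sum_congr rfl fun a _ => ?_
  ring

theorem c0_coe : ((c0 N : ℝ) : ℂ) = ∑ a : ZMod N, ((Sr N a : ℝ) : ℂ) * ((Sr N a : ℝ) : ℂ) := by
  unfold c0
  push_cast
  exact Finset.sum_congr rfl fun a _ => sq _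

/-- the `q`-expansion of `Θ` without its constant term. -/
theorem hasSum_bigTheta_pnat (τ : ℍ) :
    HasSum (fun e : ℕ+ => cB N (e : ℕ) * qT τ ^ (e : ℕ)) (bigTheta N τ - ((c0 N : ℝ) : ℂ)) := by
  have hq := norm_qT_lt_one τ
  -- the two series of each class
  have hA : ∀ a : ZMod N, HasSum
      (fun e : ℕ+ => divSum (fE ((a.val : ℝ) / (N : ℝ))) e * qT τ ^ (e : ℕ))
      (∑' e : ℕ+, divSum (fE ((a.val : ℝ) / (N : ℝ))) e * qT τ ^ (e : ℕ)) := fun a =>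
    (qx_summable_divSum _ (norm_fE_le _) hq).hasSum
  have hB : ∀ a : ZMod N, HasSum
      (fun e : ℕ+ => divSum (fE (-((a.val : ℝ) / (N : ℝ)))) e * qT τ ^ (e : ℕ))
      (∑' e : ℕ+, divSum (fE (-((a.val : ℝ) / (N : ℝ)))) e * qT τ ^ (e : ℕ)) := fun a =>
    (qx_summable_divSum _ (norm_fE_le _) hq).hasSum
  have hsum := hasSum_sum (s := (Finset.univ : Finset (ZMod N)))
    (f := fun (a : ZMod N) (e : ℕ+) => ((Sr N a : ℝ) : ℂ) * (((N : ℂ) ^ 3)⁻¹ * lipC *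
      (divSum (fE ((a.val : ℝ) / (N : ℝ))) e * qT τ ^ (e : ℕ) -
        divSum (fE (-((a.val : ℝ) / (N : ℝ)))) e * qT τ ^ (e : ℕ))))
    (fun a _ => (((hA a).sub (hB a)).mul_left (((N : ℂ) ^ 3)⁻¹ * lipC)).mul_left _)
  have hval : bigTheta N τ - ((c0 N : ℝ) : ℂ) =
      ∑ a : ZMod N, ((Sr N a : ℝ) : ℂ) * (((N : ℂ) ^ 3)⁻¹ * lipC *
        (∑' e : ℕ+, divSum (fE ((a.val : ℝ) / (N : ℝ))) e * qT τ ^ (e : ℕ) -
          ∑' e : ℕ+, divSum (fE (-((a.val : ℝ) / (N : ℝ)))) e * qT τ ^ (e : ℕ))) := by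
    rw [bigTheta_eq_sum, c0_coe, ← Finset.sum_sub_distrib]
    refine Finset.sum_congr rfl fun a _ => ?_
    rw [clsSum_formula]
    ring
  rw [hval]
  refine hsum.congr_fun ?_
  intro e
  have hne : (e : ℕ) ≠ 0 := e.pos.ne'
  unfold cB
  rw [if_neg hne, ← sum_Sr_divSum, Finset.mul_sum, Finset.sum_mul]
  refine Finset.sum_congr rfl fun a _ => ?_
  ring

/-- **(H1)**. -/
theorem hasSumBigTheta : HasSumBigTheta N := by
  intro τ
  have h := (hasSum_pnat_iff (f := fun n : ℕ => cB N n * qT τ ^ n)).mp (hasSum_bigTheta_pnat N τ)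
  have h0 : cB N 0 * qT τ ^ 0 = ((c0 N : ℝ) : ℂ) := by
    unfold cB
    rw [if_pos rfl, pow_zero, mul_one]
  rwa [h0, sub_add_cancel] at h

end Fermat.Agent.S48G1.ThetaQ
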