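import Fermat.Agent.S48.G1.ThetaFinal
import Fermat.Agent.S48.G1.ThetaQExpMain
import Fermat.Agent.S48.G1.ThetaQExpBern
import Fermat.Agent.S48.G1.Main

/-!
# S48 THETA1: done (helper92 + helper1, with helper15's PORT)

* `thetaStatement_proved : ThetaStatement` (unconditional);
* `intStructStatement_proved : Fermat.Agent.S48.IntStructStatement` (unconditional).
-/

set_option autoImplicit false

namespace Fermat.Agent.S48G1.ThetaQ

/-- **THETA1**, unconditionally. -/
theorem thetaStatement_proved : Fermat.Agent.S48G1.ThetaStatement :=
  thetaStatement_of (fun N _ _ => hasSumBigTheta N) (fun N _ _ => dkBern N)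

/-- the integral structure of `S₁(Γ₁(N))`, unconditionally. -/
theorem intStructStatement_proved : Fermat.Agent.S48.IntStructStatement :=
  Fermat.Agent.S48G1.intStruct_of_theta thetaStatement_proved

end Fermat.Agent.S48G1.ThetaQ
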