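import Fermat.Agent.S48.G1.ThetaLim

/-!
# S48 THETA1 (helper92): the translates of `θ`; reduction of `ThetaAt N 3` to the `q`-expansion

* `limTrans N k = c0⁻¹ ∑_a [a k₁₀ = 0] Sr (a k₁₁) Sr a`: the limit at `i∞` of `θ ∣[3] k⁻¹`,
* `limTrans_ne_one`: `≠ 1` for `k ∉ Γ₁(N)` (Cauchy–Schwarz; `Sr 1` is the strict maximum),
* `thetaAt_of_qExp`: `ThetaAt N 3` from the `q`-expansion statement (seat (B), helper1).
-/

set_option autoImplicit false

noncomputable section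

namespace Fermat.Agent.S48G1.Theta

open UpperHalfPlane EisensteinSeries ModularForm Matrix CongruenceSubgroup Filter Topology
open Fermat.Agent.S23
open scoped MatrixGroups

variable {N : ℕ}

/-- the real weight `u_a = [a k₁₀ = 0] Sr (a k₁₁)` of the translate by `k`. -/
def uTrans (N : ℕ) (k : SL(2, ℤ)) (a : ZMod N) : ℝ :=
  if a * ((k 1 0 : ℤ) : ZMod N) = 0 then Sr N (a * ((k 1 1 : ℤ) : ZMod N)) else 0

theorem wTheta_vecMul (k : SL(2, ℤ)) (a : ZMod N) :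
    wTheta N (![0, a] ᵥ* redMat N k) = ((uTrans N k a : ℝ) : ℂ) := by
  unfold wTheta uTrans
  rw [vecMul_redMat_zero, vecMul_redMat_one]
  simp only [Matrix.cons_val_zero, Matrix.cons_val_one, zero_mul, zero_add]
  split_ifs <;> simp

theorem det_mod (k : SL(2, ℤ)) :
    ((k 0 0 : ℤ) : ZMod N) * ((k 1 1 : ℤ) : ZMod N) -
      ((k 0 1 : ℤ) : ZMod N) * ((k 1 0 : ℤ) : ZMod N) = 1 := by
  have h := k.2
  rw [Matrix.det_fin_two] at h
  have h2 := congrArg (fun t : ℤ => (t : ZMod N)) h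
  simpa using h2

theorem sum_uTrans_sq_le [NeZero N] (k : SL(2, ℤ)) :
    ∑ a : ZMod N, uTrans N k a ^ 2 ≤ c0 N := by
  classical
  unfold c0
  have h1 : ∑ a : ZMod N, uTrans N k a ^ 2 =
      ∑ a ∈ Finset.univ.filter (fun a : ZMod N => a * ((k 1 0 : ℤ) : ZMod N) = 0),
        Sr N (a * ((k 1 1 : ℤ) : ZMod N)) ^ 2 := by
    rw [Finset.sum_filter]
    refine Finset.sum_congr rfl fun a _ => ?_
    unfold uTrans
    split_ifs <;> simp
  rw [h1]
  have hinj : Set.InjOn (fun a : ZMod N => a * ((k 1 1 : ℤ) : ZMod N))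
      (Finset.univ.filter (fun a : ZMod N => a * ((k 1 0 : ℤ) : ZMod N) = 0) : Finset (ZMod N)) := by
    intro a ha b hb hab
    simp only [Finset.coe_filter, Finset.mem_univ, true_and, Set.mem_ofPred_eq] at ha hb
    simp only at hab
    have hd := det_mod (N := N) k
    calc a = a * (((k 0 0 : ℤ) : ZMod N) * ((k 1 1 : ℤ) : ZMod N) -
          ((k 0 1 : ℤ) : ZMod N) * ((k 1 0 : ℤ) : ZMod N)) := by rw [hd, mul_one]
      _ = ((k 0 0 : ℤ) : ZMod N) * (a * ((k 1 1 : ℤ) : ZMod N)) -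
          ((k 0 1 : ℤ) : ZMod N) * (a * ((k 1 0 : ℤ) : ZMod N)) := by ring
      _ = ((k 0 0 : ℤ) : ZMod N) * (b * ((k 1 1 : ℤ) : ZMod N)) -
          ((k 0 1 : ℤ) : ZMod N) * (b * ((k 1 0 : ℤ) : ZMod N)) := by rw [hab, ha, hb]
      _ = b * (((k 0 0 : ℤ) : ZMod N) * ((k 1 1 : ℤ) : ZMod N) -
          ((k 0 1 : ℤ) : ZMod N) * ((k 1 0 : ℤ) : ZMod N)) := by ring
      _ = b := by rw [hd, mul_one]
  rw [← Finset.sum_image (f := fun b : ZMod N => Sr N b ^ 2) hinj]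
  exact Finset.sum_le_sum_of_subset_of_nonneg (Finset.subset_univ _) fun b _ _ => sq_nonneg _

/-- **Cauchy–Schwarz with equality case**: the limit of a nontrivial translate is not `c0`. -/
theorem sum_uTrans_mul_ne (hN : 3 ≤ N) [NeZero N] (k : SL(2, ℤ)) (hk : k ∉ Gamma1 N) :
    ∑ a : ZMod N, uTrans N k a * Sr N a ≠ c0 N := by
  intro heq
  have hle := sum_uTrans_sq_le (N := N) k
  have hsq : ∑ a : ZMod N, (Sr N a - uTrans N k a) ^ 2 ≤ 0 := by
    have : ∑ a : ZMod N, (Sr N a - uTrans N k a) ^ 2 =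
        c0 N - 2 * ∑ a : ZMod N, uTrans N k a * Sr N a + ∑ a : ZMod N, uTrans N k a ^ 2 := by
      unfold c0
      rw [Finset.mul_sum, ← Finset.sum_sub_distrib, ← Finset.sum_add_distrib]
      refine Finset.sum_congr rfl fun a _ => ?_
      ring
    rw [this, heq]
    linarith
  have hzero : ∀ a : ZMod N, Sr N a - uTrans N k a = 0 := by
    intro a
    have h1 : (Sr N a - uTrans N k a) ^ 2 ≤ 0 := by
      refine le_trans ?_ hsq
      exact Finset.single_le_sum (f := fun a : ZMod N => (Sr N a - uTrans N k a) ^ 2)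
        (fun a _ => sq_nonneg _) (Finset.mem_univ a)
    exact pow_eq_zero_iff (two_ne_zero) |>.mp (le_antisymm h1 (sq_nonneg _))
  have h1 := hzero 1
  have hpos := Sr_one_pos (N := N) hN
  unfold uTrans at h1
  rw [one_mul, one_mul] at h1
  by_cases h10 : ((k 1 0 : ℤ) : ZMod N) = 0
  · rw [if_pos h10] at h1
    have h11 : ((k 1 1 : ℤ) : ZMod N) = 1 := by
      by_contra hne
      have := Sr_lt_Sr_one hN hne
      linarith
    apply hk
    rw [Gamma1_mem]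
    refine ⟨?_, h11, h10⟩
    have hd := det_mod (N := N) k
    rw [h11, h10, mul_one, mul_zero, sub_zero] at hd
    exact hd
  · rw [if_neg h10] at h1
    linarith

/-- the limit at `i∞` of the translate of `θ` by `k⁻¹`. -/
def limTrans (N : ℕ) [NeZero N] (k : SL(2, ℤ)) : ℂ :=
  ((c0 N : ℝ) : ℂ)⁻¹ * ((∑ a : ZMod N, uTrans N k a * Sr N a : ℝ) : ℂ)

theorem limTrans_ne_one (hN : 3 ≤ N) [NeZero N] (k : SL(2, ℤ)) (hk : k ∉ Gamma1 N) :
    limTrans N k ≠ 1 := by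
  unfold limTrans
  have hc := c0_pos (N := N) hN
  have hc' : ((c0 N : ℝ) : ℂ) ≠ 0 := by exact_mod_cast hc.ne'
  intro h
  rw [inv_mul_eq_one₀ hc'] at h
  exact sum_uTrans_mul_ne hN k hk (by exact_mod_cast h.symm)

theorem tendsto_theta_slash [NeZero N] (g : SL(2, ℤ)) :
    Tendsto (⇑(thetaMF N) ∣[(3 : ℤ)] g) atImInfty (𝓝 (limTrans N g⁻¹)) := by
  have h1 : (⇑(thetaMF N) ∣[(3 : ℤ)] g) =
      (((c0 N : ℝ) : ℂ)⁻¹) • wlat N (fun a => wTheta N (a ᵥ* redMat N g⁻¹)) := by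
    have hb : bigTheta N = wlat N (wTheta N) := rfl
    rw [coe_thetaMF, SL_smul_slash, hb, wlat_slash]
  rw [h1]
  have h2 := (tendsto_wlat (N := N) (fun a => wTheta N (a ᵥ* redMat N g⁻¹))).const_mul
    (((c0 N : ℝ) : ℂ)⁻¹)
  have h3 : (∑ a : ZMod N, wTheta N (![0, a] ᵥ* redMat N g⁻¹) * ((Sr N a : ℝ) : ℂ)) =
      ((∑ a : ZMod N, uTrans N g⁻¹ a * Sr N a : ℝ) : ℂ) := by
    push_cast
    refine Finset.sum_congr rfl fun a _ => ?_
    rw [wTheta_vecMul]
  rw [h3] at h2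
  exact h2

theorem limTrans_one [NeZero N] (hN : 3 ≤ N) : limTrans N 1 = 1 := by
  unfold limTrans
  have hc := c0_pos (N := N) hN
  have hc' : ((c0 N : ℝ) : ℂ) ≠ 0 := by exact_mod_cast hc.ne'
  rw [inv_mul_eq_one₀ hc']
  congr 1
  unfold c0
  refine Finset.sum_congr rfl fun a _ => ?_
  unfold uTrans
  simp [sq]

theorem tendsto_theta (hN : 3 ≤ N) [NeZero N] : Tendsto (thetaMF N) atImInfty (𝓝 1) := by
  have h := tendsto_theta_slash (N := N) 1
  rw [inv_one, limTrans_one hN] at h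
  have h2 : (⇑(thetaMF N) ∣[(3 : ℤ)] (1 : SL(2, ℤ))) = ⇑(thetaMF N) := by
    rw [SL_slash]
    simp
  rwa [h2] at h

/-- **THETA1, reduced to the `q`-expansion** (seat (B)). -/
theorem thetaAt_of_qExp (hN : 3 ≤ N) [NeZero N]
    (hq : ∃ M : ℕ, 0 < M ∧ (M : ℂ) • qExpansion 1 (thetaMF N) ∈ ZSer) : ThetaAt N 3 := by
  refine ⟨thetaMF N, hq, tendsto_theta hN, ?_⟩
  intro q hq'
  induction q using QuotientGroup.induction_on with
  | H h =>
    obtain ⟨g, hg⟩ : ∃ g : SL(2, ℤ),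
        (Matrix.SpecialLinearGroup.mapGL ℝ g : GL (Fin 2) ℝ) = (h : GL (Fin 2) ℝ)⁻¹ := by
      obtain ⟨g0, hg0⟩ := h.2
      exact ⟨g0⁻¹, by rw [map_inv, hg0]⟩
    refine ⟨limTrans N g⁻¹, ?_, ?_⟩
    · apply limTrans_ne_one hN
      intro hmem
      apply hq'
      rw [QuotientGroup.eq, mul_one, Subgroup.mem_subgroupOf]
      refine ⟨g, ?_, ?_⟩
      · have := (Gamma1 N).inv_mem hmem
        simpa using this
      · rw [hg]; rfl
    · have hq'' : SlashInvariantForm.quotientFunc (thetaMF N)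
          (QuotientGroup.mk h : 𝒮ℒ ⧸ (G1 N).subgroupOf 𝒮ℒ) =
          ⇑(thetaMF N) ∣[(3 : ℤ)] (h : GL (Fin 2) ℝ)⁻¹ := rfl
      rw [hq'', ← hg]
      exact tendsto_theta_slash g

/-- `ThetaStatement` from the `q`-expansion statement. -/
theorem thetaStatement_of_qExp
    (hq : ∀ (N : ℕ) [NeZero N], 3 ≤ N →
      ∃ M : ℕ, 0 < M ∧ (M : ℂ) • qExpansion 1 (thetaMF N) ∈ ZSer) : ThetaStatement :=
  fun N _ hN => ⟨3, thetaAt_of_qExp hN (hq N hN)⟩

end Fermat.Agent.S48G1.Theta
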