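import Fermat.Agent.S48.G1.ThetaQExpIface
import Fermat.Agent.S48.G1.ThetaTrans

/-!
# S48 THETA1: the final step (helper92)

From the `q`-expansion of `Θ` (H1), the Fourier transform of `Sr` (H2) and Parseval:
`θ = Θ / c0` has `q`-expansion `1 - (12 N / P) ∑_n (∑_{d ∣ n} d² b_d) q^n` with
`b_d = r (2 r - N) (r - N)`, `r = d mod N`, and `P = ∑_k b_k²`.  Hence `P • qExpansion θ ∈ ZSer`.
-/

set_option autoImplicit false

noncomputable section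

namespace Fermat.Agent.S48G1.ThetaQ

open Fermat.Agent.S48G1.Theta Fermat.Agent.S48G1 Fermat.Agent.S23
open UpperHalfPlane ModularForm Complex

variable {N : ℕ}

/-- `2 N³ B₃(r / N) = r (2 r - N) (r - N)`. -/
def bInt (N : ℕ) (r : ℤ) : ℤ := r * (2 * r - N) * (r - N)

theorem bern3_div (hN : N ≠ 0) (r : ℕ) :
    bern3 ((r : ℝ) / (N : ℝ)) = (bInt N r : ℝ) / (2 * (N : ℝ) ^ 3) := by
  have hN' : (N : ℝ) ≠ 0 := by exact_mod_cast hN
  unfold bern3 bInt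
  push_cast
  field_simp
  ring

/-- `P = ∑_k b_k²`. -/
def bigP (N : ℕ) [NeZero N] : ℤ := ∑ k : ZMod N, bInt N (k.val : ℤ) ^ 2

/-- the integral coefficients of `P • θ`. -/
def zCoeff (N : ℕ) [NeZero N] (n : ℕ) : ℤ :=
  if n = 0 then bigP N
  else -(12 * (N : ℤ)) * ∑ d ∈ n.divisors, (d : ℤ) ^ 2 * bInt N (((d : ZMod N).val : ℕ) : ℤ)

theorem coefI_sq : (-(4 * (Real.pi : ℂ) ^ 3 * Complex.I / 3)) ^ 2 = -(16 * (Real.pi : ℂ) ^ 6 / 9) := by
  have hI : Complex.I ^ 2 = -1 := Complex.I_sq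
  linear_combination (16 * (Real.pi : ℂ) ^ 6 / 9) * hI

theorem lipC_eq : lipC = 4 * (Real.pi : ℂ) ^ 3 * Complex.I := by
  unfold lipC
  have hI : Complex.I ^ 2 = -1 := Complex.I_sq
  linear_combination (-4 * (Real.pi : ℂ) ^ 3 * Complex.I) * hI

theorem lipC_mul_coefI :
    lipC * (4 * (Real.pi : ℂ) ^ 3 * Complex.I) = -(16 * (Real.pi : ℂ) ^ 6) := by
  rw [lipC_eq]
  have hI : Complex.I ^ 2 = -1 := Complex.I_sq
  linear_combination (16 * (Real.pi : ℂ) ^ 6) * hI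

theorem c0_formula [NeZero N] (h2 : DkBern N) :
    ((c0 N : ℝ) : ℂ) = 4 * (Real.pi : ℂ) ^ 6 * (bigP N : ℂ) / (9 * (N : ℂ) ^ 7) := by
  have hN : (N : ℂ) ≠ 0 := by exact_mod_cast NeZero.ne N
  have hp := parseval_c0 N
  have hsum : ∑ k : ZMod N, Dk N k ^ 2 =
      -(4 * (Real.pi : ℂ) ^ 6 * (bigP N : ℂ) / (9 * (N : ℂ) ^ 6)) := by
    unfold bigP
    push_cast
    rw [Finset.mul_sum, Finset.sum_div, ← Finset.sum_neg_distrib]
    refine Finset.sum_congr rfl fun k _ => ?_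
    rw [h2 k, bern3_div (NeZero.ne N), mul_pow, coefI_sq]
    push_cast
    field_simp
    ring
  rw [hsum, neg_neg] at hp
  field_simp at hp ⊢
  linear_combination hp

theorem bigP_pos (hN : 3 ≤ N) [NeZero N] (h2 : DkBern N) : 0 < bigP N := by
  have hc := c0_pos (N := N) hN
  have h := c0_formula h2
  have hreal : (c0 N : ℝ) = 4 * Real.pi ^ 6 * (bigP N : ℝ) / (9 * (N : ℝ) ^ 7) := by
    exact_mod_cast h
  have hNpos : (0 : ℝ) < N := by exact_mod_cast NeZero.pos N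
  by_contra hneg
  have hle : (bigP N : ℝ) ≤ 0 := by exact_mod_cast not_lt.mp hneg
  have : (c0 N : ℝ) ≤ 0 := by
    rw [hreal]
    apply div_nonpos_of_nonpos_of_nonneg
    · exact mul_nonpos_of_nonneg_of_nonpos (by positivity) hle
    · positivity
  linarith

theorem coeff_formula (hN : 3 ≤ N) [NeZero N] (h2 : DkBern N) (n : ℕ) :
    (bigP N : ℂ) * (((c0 N : ℝ) : ℂ)⁻¹ * cB N n) = (zCoeff N n : ℂ) := by
  have hNC : (N : ℂ) ≠ 0 := by exact_mod_cast NeZero.ne N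
  have hc0 : ((c0 N : ℝ) : ℂ) ≠ 0 := by exact_mod_cast (c0_pos (N := N) hN).ne'
  have hP : (bigP N : ℂ) ≠ 0 := by exact_mod_cast (bigP_pos hN h2).ne'
  have hpi : (Real.pi : ℂ) ≠ 0 := by exact_mod_cast Real.pi_ne_zero
  unfold cB zCoeff
  by_cases hn : n = 0
  · rw [if_pos hn, if_pos hn, inv_mul_cancel₀ hc0, mul_one]
  · rw [if_neg hn, if_neg hn, c0_formula h2]
    have hsum : ∑ d ∈ n.divisors, (d : ℂ) ^ 2 * (-2 * Dk N ((d : ℕ) : ZMod N)) =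
        ((4 * (Real.pi : ℂ) ^ 3 * Complex.I) / (3 * (N : ℂ) ^ 3)) *
          ∑ d ∈ n.divisors, (d : ℂ) ^ 2 * ((bInt N (((d : ZMod N).val : ℕ) : ℤ) : ℤ) : ℂ) := by
      rw [Finset.mul_sum]
      refine Finset.sum_congr rfl fun d _ => ?_
      rw [h2, bern3_div (NeZero.ne N)]
      push_cast
      field_simp
    rw [hsum]
    set T : ℂ := ∑ d ∈ n.divisors, (d : ℂ) ^ 2 * ((bInt N (((d : ZMod N).val : ℕ) : ℤ) : ℤ) : ℂ)
      with hT
    have hprod : ((N : ℂ) ^ 3)⁻¹ * lipC *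
        (((4 * (Real.pi : ℂ) ^ 3 * Complex.I) / (3 * (N : ℂ) ^ 3)) * T) =
        -(16 * (Real.pi : ℂ) ^ 6) * T / (3 * (N : ℂ) ^ 6) := by
      have h := lipC_mul_coefI
      have hN3 : ((N : ℂ) ^ 3) ≠ 0 := pow_ne_zero 3 hNC
      have hN6 : ((N : ℂ) ^ 6) ≠ 0 := pow_ne_zero 6 hNC
      have e1 : ((N : ℂ) ^ 3)⁻¹ * lipC *
          (((4 * (Real.pi : ℂ) ^ 3 * Complex.I) / (3 * (N : ℂ) ^ 3)) * T) =
          (lipC * (4 * (Real.pi : ℂ) ^ 3 * Complex.I)) * T / (3 * (N : ℂ) ^ 6) := by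
        rw [eq_div_iff (mul_ne_zero (by norm_num) hN6)]
        have e2 : ((N : ℂ) ^ 3)⁻¹ * (N : ℂ) ^ 3 = 1 := inv_mul_cancel₀ hN3
        have e3 : ((4 * (Real.pi : ℂ) ^ 3 * Complex.I) / (3 * (N : ℂ) ^ 3)) * (3 * (N : ℂ) ^ 3) =
            4 * (Real.pi : ℂ) ^ 3 * Complex.I := div_mul_cancel₀ _ (mul_ne_zero (by norm_num) hN3)
        have e4 : (3 : ℂ) * (N : ℂ) ^ 6 = (N : ℂ) ^ 3 * (3 * (N : ℂ) ^ 3) := by ring
        rw [e4]
        calc ((N : ℂ) ^ 3)⁻¹ * lipC *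
              (((4 * (Real.pi : ℂ) ^ 3 * Complex.I) / (3 * (N : ℂ) ^ 3)) * T) *
              ((N : ℂ) ^ 3 * (3 * (N : ℂ) ^ 3))
            = (((N : ℂ) ^ 3)⁻¹ * (N : ℂ) ^ 3) * lipC *
              ((((4 * (Real.pi : ℂ) ^ 3 * Complex.I) / (3 * (N : ℂ) ^ 3)) * (3 * (N : ℂ) ^ 3)) * T) := by
                ring
          _ = lipC * (4 * (Real.pi : ℂ) ^ 3 * Complex.I) * T := by rw [e2, e3]; ring
      rw [e1, h]
    rw [hprod]
    have hz : ((-(12 * (N : ℤ)) * ∑ d ∈ n.divisors,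
        (d : ℤ) ^ 2 * bInt N (((d : ZMod N).val : ℕ) : ℤ) : ℤ) : ℂ) = -(12 * (N : ℂ)) * T := by
      rw [hT]
      push_cast
      rfl
    rw [hz]
    field_simp
    ring

theorem qT_eq (τ : ℍ) : qT τ = Function.Periodic.qParam 1 (τ : ℂ) := by
  unfold qT Function.Periodic.qParam
  simp

/-- the `q`-coefficients of `θ`. -/
theorem qExpansion_thetaMF_coeff [NeZero N] (h1 : HasSumBigTheta N) (n : ℕ) :
    (qExpansion 1 (thetaMF N)).coeff n = ((c0 N : ℝ) : ℂ)⁻¹ * cB N n := by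
  refine (ModularFormClass.qExpansion_coeff_unique one_pos (one_mem_strictPeriods_G1 N)
    (f := thetaMF N) (c := fun n => ((c0 N : ℝ) : ℂ)⁻¹ * cB N n) (fun τ => ?_) n).symm
  have h := (h1 τ).mul_left (((c0 N : ℝ) : ℂ)⁻¹)
  rw [thetaMF_apply]
  have hfun : (fun m : ℕ => (((c0 N : ℝ) : ℂ)⁻¹ * cB N m) • Function.Periodic.qParam 1 (τ : ℂ) ^ m) =
      fun i : ℕ => ((c0 N : ℝ) : ℂ)⁻¹ * (cB N i * qT τ ^ i) := by
    funext m
    rw [smul_eq_mul, qT_eq]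
    ring
  rw [hfun]
  exact h

/-- **final step**: `P • qExpansion θ ∈ ZSer`. -/
theorem hq_of (hN : 3 ≤ N) [NeZero N] (h1 : HasSumBigTheta N) (h2 : DkBern N) :
    ∃ M : ℕ, 0 < M ∧ (M : ℂ) • qExpansion 1 (thetaMF N) ∈ ZSer := by
  have hP := bigP_pos hN h2
  refine ⟨(bigP N).toNat, by omega, PowerSeries.mk (zCoeff N), ?_⟩
  ext n
  have hcast : (((bigP N).toNat : ℕ) : ℂ) = (bigP N : ℂ) := by
    have : (((bigP N).toNat : ℕ) : ℤ) = bigP N := Int.toNat_of_nonneg hP.le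
    exact_mod_cast congrArg (fun z : ℤ => (z : ℂ)) this
  rw [PowerSeries.coeff_map, PowerSeries.coeff_mk, PowerSeries.coeff_smul,
    qExpansion_thetaMF_coeff h1, hcast, smul_eq_mul, coeff_formula hN h2]
  simp

/-- **THETA1** from (H1) and (H2). -/
theorem thetaStatement_of (h1 : ∀ (N : ℕ) [NeZero N], 3 ≤ N → HasSumBigTheta N)
    (h2 : ∀ (N : ℕ) [NeZero N], 3 ≤ N → DkBern N) : ThetaStatement :=
  thetaStatement_of_qExp fun N _ hN => hq_of hN (h1 N hN) (h2 N hN)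

end Fermat.Agent.S48G1.ThetaQ
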