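import Fermat.Agent.S48.G1.ThetaDefs

/-!
# S48 THETA1 (helper92): the residue sums `Sr N a = ∑_{n ≡ a mod N} n⁻³`

* `summable_SrTerm`, `Sr_neg` (oddness), `Sr_zero`,
* `Sr_eq_tsum_shift : Sr N a = ∑' j : ℤ, ((a.val + N j) ^ 3)⁻¹`,
* `Sr_lt_Sr_one : 3 ≤ N → b ≠ 1 → Sr N b < Sr N 1`, `Sr_one_pos`.
-/

set_option autoImplicit false

noncomputable section

namespace Fermat.Agent.S48G1.Theta

variable {N : ℕ}

theorem summable_inv_int_cube : Summable fun n : ℤ => ((n : ℝ) ^ 3)⁻¹ := by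
  have h := (Real.summable_one_div_int_pow (p := 3)).mpr (by norm_num)
  simpa [one_div] using h

theorem summable_abs_inv_int_cube : Summable fun n : ℤ => |((n : ℝ) ^ 3)⁻¹| :=
  summable_inv_int_cube.abs

theorem summable_SrTerm (a : ZMod N) :
    Summable fun n : ℤ => if (n : ZMod N) = a then ((n : ℝ) ^ 3)⁻¹ else 0 := by
  refine Summable.of_norm_bounded summable_abs_inv_int_cube (fun n => ?_)
  split_ifs
  · rw [Real.norm_eq_abs]
  · simp

/-- `Sr` is odd. -/
theorem Sr_neg (a : ZMod N) : Sr N (-a) = -Sr N a := by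
  unfold Sr
  rw [← (Equiv.neg ℤ).tsum_eq, ← tsum_neg]
  refine tsum_congr fun n => ?_
  simp only [Equiv.neg_apply, Int.cast_neg, neg_inj]
  split_ifs
  · rw [Odd.neg_pow (by decide), inv_neg]
  · simp

theorem Sr_zero : Sr N 0 = 0 := by
  have h := Sr_neg (N := N) 0
  rw [neg_zero] at h
  linarith

/-- reindexing: `Sr N a = ∑_j (a.val + N j)⁻³`. -/
theorem Sr_eq_tsum_shift [NeZero N] (a : ZMod N) :
    Sr N a = ∑' j : ℤ, ((((a.val : ℤ) + N * j : ℤ) : ℝ) ^ 3)⁻¹ := by
  unfold Sr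
  have hinj : Function.Injective fun j : ℤ => ((a.val : ℤ) + N * j) := by
    intro j j' h
    have hN : (N : ℤ) ≠ 0 := by exact_mod_cast NeZero.ne N
    have : (N : ℤ) * j = N * j' := by simpa using h
    exact mul_left_cancel₀ hN this
  have hsupp : Function.support (fun n : ℤ => if (n : ZMod N) = a then ((n : ℝ) ^ 3)⁻¹ else 0) ⊆
      Set.range fun j : ℤ => ((a.val : ℤ) + N * j) := by
    intro n hn
    rw [Function.mem_support] at hn
    have hna : (n : ZMod N) = a := by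
      by_contra h
      exact hn (if_neg h)
    have h1 : ((n - (a.val : ℤ) : ℤ) : ZMod N) = 0 := by
      rw [Int.cast_sub, hna]
      simp
    obtain ⟨j, hj⟩ := (ZMod.intCast_zmod_eq_zero_iff_dvd _ N).mp h1
    exact ⟨j, by simp only; rw [← hj]; ring⟩
  rw [← hinj.tsum_eq hsupp]
  refine tsum_congr fun j => ?_
  have : ((((a.val : ℤ) + N * j : ℤ)) : ZMod N) = a := by
    simp
  rw [if_pos this]

theorem summable_shift [NeZero N] (a : ZMod N) :
    Summable fun j : ℤ => ((((a.val : ℤ) + N * j : ℤ) : ℝ) ^ 3)⁻¹ := by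
  have hinj : Function.Injective fun j : ℤ => ((a.val : ℤ) + N * j) := by
    intro j j' h
    have hN : (N : ℤ) ≠ 0 := by exact_mod_cast NeZero.ne N
    have : (N : ℤ) * j = N * j' := by simpa using h
    exact mul_left_cancel₀ hN this
  exact summable_inv_int_cube.comp_injective hinj

/-- termwise comparison. -/
theorem inv_cube_lt_inv_cube {x y : ℝ} (hxy : x < y) (h : 0 < x ∨ y < 0) :
    (y ^ 3)⁻¹ < (x ^ 3)⁻¹ := by
  have h3 : x ^ 3 < y ^ 3 := by
    have : StrictMono fun t : ℝ => t ^ 3 := Odd.strictMono_pow (by decide)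
    exact this hxy
  rcases h with h | h
  · have hx3 : 0 < x ^ 3 := by positivity
    exact (inv_lt_inv₀ (hx3.trans h3) hx3).mpr h3
  · have hy3 : y ^ 3 < 0 := by
      have : Odd 3 := by decide
      exact this.pow_neg h
    exact (inv_lt_inv_of_neg hy3 (h3.trans hy3)).mpr h3

theorem Sr_eq_tsum_shift' [NeZero N] (a : ZMod N) :
    Sr N a = ∑' j : ℤ, (((a.val : ℝ) + N * j) ^ 3)⁻¹ := by
  rw [Sr_eq_tsum_shift]
  refine tsum_congr fun j => ?_
  push_cast
  rfl

theorem summable_shift' [NeZero N] (a : ZMod N) :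
    Summable fun j : ℤ => (((a.val : ℝ) + N * j) ^ 3)⁻¹ := by
  refine (summable_shift a).congr fun j => ?_
  push_cast
  rfl

theorem shift_term_lt (hN : 3 ≤ N) {r : ℕ} (hr : 2 ≤ r) (hrN : r < N) (j : ℤ) :
    (((r : ℝ) + N * j) ^ 3)⁻¹ < (((1 : ℝ) + N * j) ^ 3)⁻¹ := by
  have hNpos : (0 : ℝ) < N := by positivity
  have hr' : (2 : ℝ) ≤ r := by exact_mod_cast hr
  have hrN' : (r : ℝ) + 1 ≤ N := by exact_mod_cast hrN
  apply inv_cube_lt_inv_cube
  · linarith
  · rcases le_or_gt 0 j with hj | hj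
    · left
      have : (0 : ℝ) ≤ j := by exact_mod_cast hj
      have := mul_nonneg hNpos.le this
      linarith
    · right
      have h1 : (j : ℝ) ≤ -1 := by
        have : j ≤ -1 := by omega
        exact_mod_cast this
      have h2 : (N : ℝ) * j ≤ N * (-1) := mul_le_mul_of_nonneg_left h1 hNpos.le
      linarith

/-- `Sr N 1` is the strict maximum of `Sr N` (`N ≥ 3`), part 1: residues `2 ≤ r < N`. -/
theorem Sr_lt_Sr_one_of_val (hN : 3 ≤ N) [NeZero N] (b : ZMod N) (hb : 2 ≤ b.val) :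
    Sr N b < Sr N 1 := by
  have hN1 : Fact (1 < N) := ⟨by omega⟩
  have hbN : b.val < N := ZMod.val_lt b
  have h1 : ((1 : ZMod N).val : ℝ) = 1 := by
    rw [ZMod.val_one]
    simp
  rw [Sr_eq_tsum_shift' b, Sr_eq_tsum_shift' (1 : ZMod N)]
  have hs1 := summable_shift' (1 : ZMod N)
  simp only [h1] at hs1 ⊢
  exact Summable.tsum_lt_tsum (i := 0) (fun j => (shift_term_lt hN hb hbN j).le)
    (shift_term_lt hN hb hbN 0) (summable_shift' b) hs1

theorem Sr_one_pos (hN : 3 ≤ N) [NeZero N] : 0 < Sr N 1 := by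
  have hN1 : Fact (1 < N) := ⟨by omega⟩
  have hval : (-1 : ZMod N).val = N - 1 := by
    rw [ZMod.neg_val, if_neg (one_ne_zero), ZMod.val_one]
  have h := Sr_lt_Sr_one_of_val hN (-1 : ZMod N) (by rw [hval]; omega)
  rw [Sr_neg] at h
  linarith

/-- `Sr N 1` is the strict maximum of `Sr N` (`N ≥ 3`). -/
theorem Sr_lt_Sr_one (hN : 3 ≤ N) [NeZero N] {b : ZMod N} (hb : b ≠ 1) : Sr N b < Sr N 1 := by
  have hN1 : Fact (1 < N) := ⟨by omega⟩
  by_cases h0 : b = 0
  · rw [h0, Sr_zero]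
    exact Sr_one_pos hN
  · refine Sr_lt_Sr_one_of_val hN b ?_
    have h1 : b.val ≠ 0 := fun h => h0 ((ZMod.val_eq_zero b).mp h)
    have h2 : b.val ≠ 1 := by
      intro h
      apply hb
      have := ZMod.natCast_zmod_val b
      rw [h] at this
      simpa using this.symm
    omega

end Fermat.Agent.S48G1.Theta
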