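import Fermat.Agent.S48.G1.ThetaMF
import Fermat.Agent.S48.G1.ThetaSr

/-!
# S48 THETA1 (helper92): the form `θ = Θ / c0` on `Γ₁(N)`

* `wTheta_invariant`: the weight function of `Θ` is `Γ₁(N)`-invariant,
* `bigThetaMF N : ModularForm (G1 N) 3` (underlying function `bigTheta N`),
* `c0_pos`, `thetaMF N = (c0 N)⁻¹ • bigThetaMF N`.
-/

set_option autoImplicit false

noncomputable section

namespace Fermat.Agent.S48G1.Theta

open UpperHalfPlane EisensteinSeries ModularForm Matrix CongruenceSubgroup Filter Topology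
open scoped MatrixGroups

variable {N : ℕ}

theorem vecMul_redMat_zero (a : Fin 2 → ZMod N) (γ : SL(2, ℤ)) :
    (a ᵥ* redMat N γ) 0 = a 0 * ((γ 0 0 : ℤ) : ZMod N) + a 1 * ((γ 1 0 : ℤ) : ZMod N) := by
  simp [Matrix.vecMul, dotProduct, Fin.sum_univ_two, redMat_apply]

theorem vecMul_redMat_one (a : Fin 2 → ZMod N) (γ : SL(2, ℤ)) :
    (a ᵥ* redMat N γ) 1 = a 0 * ((γ 0 1 : ℤ) : ZMod N) + a 1 * ((γ 1 1 : ℤ) : ZMod N) := by
  simp [Matrix.vecMul, dotProduct, Fin.sum_univ_two, redMat_apply]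

theorem wTheta_invariant (γ : SL(2, ℤ)) (hγ : γ ∈ Gamma1 N) (a : Fin 2 → ZMod N) :
    wTheta N (a ᵥ* redMat N γ) = wTheta N a := by
  obtain ⟨h00, h11, h10⟩ := (Gamma1_mem N γ).mp hγ
  unfold wTheta
  rw [vecMul_redMat_zero, vecMul_redMat_one, h00, h11, h10, mul_one, mul_zero, add_zero, mul_one]
  by_cases ha : a 0 = 0
  · rw [if_pos ha, if_pos ha, ha, zero_mul, zero_add]
  · rw [if_neg ha, if_neg ha]

/-- `Θ` as a modular form of weight `3` on `Γ₁(N)`. -/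
def bigThetaMF (N : ℕ) [NeZero N] : ModularForm (G1 N) 3 :=
  wlatG1 N (wTheta N) wTheta_invariant

theorem coe_bigThetaMF [NeZero N] : ⇑(bigThetaMF N) = bigTheta N := rfl

theorem c0_pos (hN : 3 ≤ N) [NeZero N] : 0 < c0 N := by
  unfold c0
  have h1 := Sr_one_pos (N := N) hN
  refine lt_of_lt_of_le (pow_pos h1 2) ?_
  exact Finset.single_le_sum (f := fun a : ZMod N => Sr N a ^ 2) (fun a _ => sq_nonneg _)
    (Finset.mem_univ (1 : ZMod N))

/-- the primitive element `θ = Θ / c0`. -/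
def thetaMF (N : ℕ) [NeZero N] : ModularForm (G1 N) 3 :=
  (((c0 N : ℝ) : ℂ)⁻¹) • bigThetaMF N

theorem coe_thetaMF [NeZero N] : ⇑(thetaMF N) = (((c0 N : ℝ) : ℂ)⁻¹) • bigTheta N := rfl

theorem thetaMF_apply [NeZero N] (τ : ℍ) : thetaMF N τ = ((c0 N : ℝ) : ℂ)⁻¹ * bigTheta N τ := rfl

end Fermat.Agent.S48G1.Theta
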