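import Fermat.Agent.S48.G1.ThetaForm

/-!
# S48 THETA1 (helper92): limits at `i∞` of weighted lattice sums

`tendsto_wlat`: `wlat N w τ → ∑_a w(0, a) Sr N a` as `τ → i∞` (Tannery, after translating `τ`
into a vertical strip of width `N`).
-/

set_option autoImplicit false

noncomputable section

namespace Fermat.Agent.S48G1.Theta

open UpperHalfPlane EisensteinSeries ModularForm Matrix CongruenceSubgroup Filter Topology
open scoped MatrixGroups

variable {N : ℕ}

/-- a translate of `z` by a multiple of `N` lying in the vertical strip of width `N`. -/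
def stripRep (N : ℕ) [NeZero N] (z : ℍ) : ℍ :=
  ModularGroup.T ^ ((N : ℤ) *
    Classical.choose (ModularGroup_T_zpow_mem_verticalStrip z (NeZero.pos N))) • z

theorem stripRep_mem [NeZero N] (z : ℍ) : stripRep N z ∈ verticalStrip N z.im :=
  Classical.choose_spec (ModularGroup_T_zpow_mem_verticalStrip z (NeZero.pos N))

theorem stripRep_im [NeZero N] (z : ℍ) : (stripRep N z).im = z.im := by
  unfold stripRep
  rw [modular_T_zpow_smul]
  simp

theorem wlat_stripRep [NeZero N] (w : (Fin 2 → ZMod N) → ℂ) (z : ℍ) :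
    wlat N w (stripRep N z) = wlat N w z := by
  rw [← wlatSIF_apply, ← wlatSIF_apply]
  exact SlashInvariantForm.T_zpow_width_invariant N 3 _ (wlatSIF N w) z

theorem tendsto_inv_im_cube : Tendsto (fun z : ℍ => (z.im ^ 3)⁻¹) atImInfty (𝓝 0) := by
  have h1 : Tendsto (fun z : ℍ => z.im) atImInfty atTop := tendsto_comap
  exact tendsto_inv_atTop_zero.comp ((tendsto_pow_atTop (n := 3) (by norm_num)).comp h1)

theorem norm_eisSummand_le (x : Fin 2 → ℤ) (hx : x 0 ≠ 0) (z : ℍ) :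
    ‖eisSummand 3 x z‖ ≤ (z.im ^ 3)⁻¹ := by
  have hz : 0 < z.im := z.im_pos
  have h1 : z.im ≤ ‖(x 0 : ℂ) * (z : ℂ) + x 1‖ := by
    have h2 : |((x 0 : ℂ) * (z : ℂ) + x 1).im| ≤ ‖(x 0 : ℂ) * (z : ℂ) + x 1‖ :=
      Complex.abs_im_le_norm _
    have h3 : ((x 0 : ℂ) * (z : ℂ) + x 1).im = (x 0 : ℝ) * z.im := by
      simp [Complex.add_im, Complex.mul_im]
    rw [h3, abs_mul, abs_of_pos hz] at h2
    have h4 : (1 : ℝ) ≤ |(x 0 : ℝ)| := by
      have : (1 : ℤ) ≤ |x 0| := Int.one_le_abs hx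
      exact_mod_cast this
    calc z.im = 1 * z.im := (one_mul _).symm
      _ ≤ |(x 0 : ℝ)| * z.im := mul_le_mul_of_nonneg_right h4 hz.le
      _ ≤ _ := h2
  have h5 : ‖eisSummand 3 x z‖ = (‖(x 0 : ℂ) * (z : ℂ) + x 1‖ ^ 3)⁻¹ := by
    rw [eisSummand, norm_zpow, _root_.zpow_neg]
    norm_cast
  rw [h5]
  exact inv_anti₀ (by positivity) (pow_le_pow_left₀ hz.le h1 3)

theorem eisSummand_of_zero (x : Fin 2 → ℤ) (hx : x 0 = 0) (z : ℍ) :
    eisSummand 3 x z = ((x 1 : ℂ) ^ 3)⁻¹ := by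
  rw [eisSummand, hx, _root_.zpow_neg]
  simp only [Int.cast_zero, zero_mul, zero_add]
  norm_cast

theorem tendsto_eisSummand_stripRep [NeZero N] (x : Fin 2 → ℤ) :
    Tendsto (fun z : ℍ => eisSummand 3 x (stripRep N z)) atImInfty
      (𝓝 (if x 0 = 0 then ((x 1 : ℂ) ^ 3)⁻¹ else 0)) := by
  by_cases hx : x 0 = 0
  · rw [if_pos hx]
    simp only [eisSummand_of_zero x hx]
    exact tendsto_const_nhds
  · rw [if_neg hx]
    refine squeeze_zero_norm (fun z => ?_) tendsto_inv_im_cube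
    have := norm_eisSummand_le x hx (stripRep N z)
    rwa [stripRep_im] at this

/-- **limit at `i∞` of a weighted lattice sum** (as a sum over the lattice). -/
theorem tendsto_wlat_tsum [NeZero N] (w : (Fin 2 → ZMod N) → ℂ) :
    Tendsto (wlat N w) atImInfty
      (𝓝 (∑' x : Fin 2 → ℤ, w ((↑) ∘ x) * (if x 0 = 0 then ((x 1 : ℂ) ^ 3)⁻¹ else 0))) := by
  obtain ⟨C, hC0, hC⟩ := exists_bound_w w
  have hfun : wlat N w = fun z : ℍ =>
      ∑' x : Fin 2 → ℤ, w ((↑) ∘ x) * eisSummand 3 x (stripRep N z) := by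
    funext z
    rw [← wlat_stripRep w z]
    rfl
  rw [hfun]
  have hk' : (2 : ℝ) < (3 : ℤ) := by norm_num
  have hsum : Summable fun x : Fin 2 → ℤ =>
      C * (r ⟨⟨N, 2⟩, Nat.ofNat_pos⟩ ^ (-(3 : ℤ)) * ‖x‖ ^ (-(3 : ℤ))) := by
    refine Summable.mul_left C ?_
    exact_mod_cast (summable_one_div_norm_rpow hk').mul_left <|
      r ⟨⟨N, 2⟩, Nat.ofNat_pos⟩ ^ (-(3 : ℤ))
  refine tendsto_tsum_of_dominated_convergence hsum
    (fun x => (tendsto_eisSummand_stripRep x).const_mul _) ?_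
  refine (atImInfty_mem _).mpr ⟨2, fun z hz x => ?_⟩
  show ‖w ((↑) ∘ x) * eisSummand 3 x (stripRep N z)‖ ≤ _
  rw [norm_mul]
  refine mul_le_mul (hC _) ?_ (norm_nonneg _) hC0
  simp_rw [eisSummand, norm_zpow]
  exact_mod_cast
    summand_bound_of_mem_verticalStrip (k := (3 : ℤ)) (lt_trans two_pos hk').le x two_pos
      (verticalStrip_anti_right N hz (stripRep_mem z))

theorem cast_comp_vec (n : ℤ) :
    (((↑) : ℤ → ZMod N) ∘ ![0, n]) = ![0, (n : ZMod N)] := by
  funext i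
  fin_cases i <;> simp

/-- the limit as a finite sum over the residues. -/
theorem tsum_limit_eq [NeZero N] (w : (Fin 2 → ZMod N) → ℂ) :
    ∑' x : Fin 2 → ℤ, w ((↑) ∘ x) * (if x 0 = 0 then ((x 1 : ℂ) ^ 3)⁻¹ else 0) =
      ∑ a : ZMod N, w ![0, a] * ((Sr N a : ℝ) : ℂ) := by
  have hinj : Function.Injective fun n : ℤ => (![0, n] : Fin 2 → ℤ) := by
    intro n m h
    have := congrFun h 1
    simpa using this
  have hsupp : Function.support (fun x : Fin 2 → ℤ =>
      w ((↑) ∘ x) * (if x 0 = 0 then ((x 1 : ℂ) ^ 3)⁻¹ else 0)) ⊆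
      Set.range fun n : ℤ => (![0, n] : Fin 2 → ℤ) := by
    intro x hx
    rw [Function.mem_support] at hx
    have hx0 : x 0 = 0 := by
      by_contra h
      exact hx (by rw [if_neg h, mul_zero])
    refine ⟨x 1, ?_⟩
    funext i
    fin_cases i
    · simpa using hx0.symm
    · simp
  rw [← hinj.tsum_eq hsupp]
  simp only [cast_comp_vec, Matrix.cons_val_zero, if_true, Matrix.cons_val_one]
  -- now a sum over `n : ℤ`
  have h1 : ∀ a : ZMod N, ((Sr N a : ℝ) : ℂ) =
      ∑' n : ℤ, (((if (n : ZMod N) = a then ((n : ℝ) ^ 3)⁻¹ else 0 : ℝ)) : ℂ) := by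
    intro a
    rw [Sr, Complex.ofReal_tsum]
  have h2 : ∀ a : ZMod N, Summable fun n : ℤ =>
      w ![0, a] * (((if (n : ZMod N) = a then ((n : ℝ) ^ 3)⁻¹ else 0 : ℝ)) : ℂ) := by
    intro a
    refine Summable.mul_left _ ?_
    exact_mod_cast (Complex.summable_ofReal.mpr (summable_SrTerm a))
  simp_rw [h1, ← tsum_mul_left]
  rw [← Summable.tsum_finsetSum (fun a _ => h2 a)]
  refine tsum_congr fun n => ?_
  rw [Finset.sum_eq_single (n : ZMod N)]
  · rw [if_pos rfl]
    push_cast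
    rfl
  · intro b _ hb
    rw [if_neg (Ne.symm hb)]
    simp
  · intro h
    exact absurd (Finset.mem_univ _) h

/-- **limit at `i∞` of a weighted lattice sum.** -/
theorem tendsto_wlat [NeZero N] (w : (Fin 2 → ZMod N) → ℂ) :
    Tendsto (wlat N w) atImInfty (𝓝 (∑ a : ZMod N, w ![0, a] * ((Sr N a : ℝ) : ℂ))) := by
  rw [← tsum_limit_eq]
  exact tendsto_wlat_tsum w

end Fermat.Agent.S48G1.Theta
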