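import Fermat.Agent.S48.G1.ThetaDefs

/-!
# S48 THETA1 (helper92): the weighted lattice sums are modular forms

* `summable_wlat`, `wlat_slash` (`wlat w ∣[3] γ = wlat (w ∘ (· ᵥ* γ⁻¹))`),
* `wlatMF N w : ModularForm Γ(N) 3`,
* `wlatG1 N w hw : ModularForm (G1 N) 3` for `Γ₁(N)`-invariant weight functions.
-/

set_option autoImplicit false

noncomputable section

namespace Fermat.Agent.S48G1.Theta

open UpperHalfPlane EisensteinSeries ModularForm Matrix CongruenceSubgroup Filter Topology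
open scoped MatrixGroups

variable {N : ℕ}

/-- reduction mod `N` of an integral matrix of determinant one. -/
def redMat (N : ℕ) (γ : SL(2, ℤ)) : Matrix (Fin 2) (Fin 2) (ZMod N) :=
  (γ : Matrix (Fin 2) (Fin 2) ℤ).map (Int.castRingHom (ZMod N))

theorem redMat_apply (γ : SL(2, ℤ)) (i j : Fin 2) : redMat N γ i j = ((γ i j : ℤ) : ZMod N) := rfl

theorem redMat_mul (γ γ' : SL(2, ℤ)) : redMat N (γ * γ') = redMat N γ * redMat N γ' := by
  unfold redMat
  rw [Matrix.SpecialLinearGroup.coe_mul]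
  exact Matrix.map_mul

theorem redMat_one : redMat N 1 = 1 := by
  unfold redMat
  rw [Matrix.SpecialLinearGroup.coe_one]
  exact Matrix.map_one _ (map_zero _) (map_one _)

theorem cast_comp_vecMul (v : Fin 2 → ℤ) (γ : SL(2, ℤ)) :
    (((↑) : ℤ → ZMod N) ∘ (v ᵥ* (γ : Matrix (Fin 2) (Fin 2) ℤ))) =
      (((↑) : ℤ → ZMod N) ∘ v) ᵥ* redMat N γ := by
  have := RingHom.map_vecMul (m := Fin 2) (n := Fin 2) (Int.castRingHom (ZMod N))
    (γ : Matrix (Fin 2) (Fin 2) ℤ) v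
  funext i
  simpa [redMat, Function.comp_def] using this i

/-- right multiplication by `γ` on `ℤ²`. -/
def vecMulEquiv (γ : SL(2, ℤ)) : (Fin 2 → ℤ) ≃ (Fin 2 → ℤ) where
  toFun v := v ᵥ* (γ : Matrix (Fin 2) (Fin 2) ℤ)
  invFun v := v ᵥ* ((γ⁻¹ : SL(2, ℤ)) : Matrix (Fin 2) (Fin 2) ℤ)
  left_inv v := by
    simp only [vecMul_vecMul, ← Matrix.SpecialLinearGroup.coe_mul, mul_inv_cancel,
      Matrix.SpecialLinearGroup.coe_one, vecMul_one]
  right_inv v := by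
    simp only [vecMul_vecMul, ← Matrix.SpecialLinearGroup.coe_mul, inv_mul_cancel,
      Matrix.SpecialLinearGroup.coe_one, vecMul_one]

theorem vecMulEquiv_apply (γ : SL(2, ℤ)) (v : Fin 2 → ℤ) :
    vecMulEquiv γ v = v ᵥ* (γ : Matrix (Fin 2) (Fin 2) ℤ) := rfl

theorem vecMul_inv_vecMul (γ : SL(2, ℤ)) (v : Fin 2 → ℤ) :
    (v ᵥ* (γ : Matrix (Fin 2) (Fin 2) ℤ)) ᵥ* ((γ⁻¹ : SL(2, ℤ)) : Matrix (Fin 2) (Fin 2) ℤ) = v :=
  (vecMulEquiv γ).left_inv v

/-- a bound for a weight function. -/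
theorem exists_bound_w [NeZero N] (w : (Fin 2 → ZMod N) → ℂ) :
    ∃ C : ℝ, 0 ≤ C ∧ ∀ a, ‖w a‖ ≤ C := by
  refine ⟨∑ a : Fin 2 → ZMod N, ‖w a‖, Finset.sum_nonneg fun _ _ => norm_nonneg _, fun a => ?_⟩
  exact Finset.single_le_sum (f := fun a => ‖w a‖) (fun _ _ => norm_nonneg _) (Finset.mem_univ a)

theorem summable_norm_wlat [NeZero N] (w : (Fin 2 → ZMod N) → ℂ) (τ : ℍ) :
    Summable fun v : Fin 2 → ℤ => ‖w ((↑) ∘ v) * eisSummand 3 v τ‖ := by
  obtain ⟨C, hC0, hC⟩ := exists_bound_w w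
  refine Summable.of_nonneg_of_le (fun _ => norm_nonneg _) (fun v => ?_)
    ((summable_norm_eisSummand (k := 3) le_rfl τ).mul_left C)
  rw [norm_mul]
  exact mul_le_mul_of_nonneg_right (hC _) (norm_nonneg _)

theorem summable_wlat [NeZero N] (w : (Fin 2 → ZMod N) → ℂ) (τ : ℍ) :
    Summable fun v : Fin 2 → ℤ => w ((↑) ∘ v) * eisSummand 3 v τ :=
  (summable_norm_wlat w τ).of_norm

/-- the slash action on weighted lattice sums. -/
theorem wlat_slash (w : (Fin 2 → ZMod N) → ℂ) (γ : SL(2, ℤ)) :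
    wlat N w ∣[(3 : ℤ)] γ = wlat N (fun a => w (a ᵥ* redMat N γ⁻¹)) := by
  ext1 z
  simp_rw [SL_slash_apply, _root_.zpow_neg,
    mul_inv_eq_iff_eq_mul₀ (zpow_ne_zero _ <| denom_ne_zero _ z),
    wlat, eisSummand_SL2_apply, ← tsum_mul_right]
  rw [← (vecMulEquiv γ).tsum_eq (fun u : Fin 2 → ℤ =>
    w ((((↑) : ℤ → ZMod N) ∘ u) ᵥ* redMat N γ⁻¹) * eisSummand 3 u z * denom γ z ^ (3 : ℤ))]
  refine tsum_congr fun v => ?_
  have h2 : ((((↑) : ℤ → ZMod N) ∘ (v ᵥ* (γ : Matrix (Fin 2) (Fin 2) ℤ))) ᵥ* redMat N γ⁻¹) =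
      ((↑) : ℤ → ZMod N) ∘ v := by
    rw [← cast_comp_vecMul, vecMul_inv_vecMul]
  simp only [vecMulEquiv_apply, h2]
  ring

theorem redMat_eq_one_of_mem_Gamma {γ : SL(2, ℤ)} (h : γ ∈ Gamma N) : redMat N γ = 1 := by
  have h1 := Gamma_mem'.mp h
  have h2 := congrArg (fun A : SL(2, ZMod N) => (A : Matrix (Fin 2) (Fin 2) (ZMod N))) h1
  simpa [redMat] using h2

/-- weighted lattice sums as slash invariant forms of level `Γ(N)`. -/
def wlatSIF (N : ℕ) (w : (Fin 2 → ZMod N) → ℂ) : SlashInvariantForm (Gamma N) 3 where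
  toFun := wlat N w
  slash_action_eq' A hA := by
    obtain ⟨A, (hA : A ∈ Γ(N)), rfl⟩ := hA
    show wlat N w ∣[(3 : ℤ)] A = wlat N w
    rw [wlat_slash, redMat_eq_one_of_mem_Gamma ((Gamma N).inv_mem hA)]
    simp

theorem wlatSIF_apply (w : (Fin 2 → ZMod N) → ℂ) (z : ℍ) : wlatSIF N w z = wlat N w z := rfl

theorem coe_wlatSIF (w : (Fin 2 → ZMod N) → ℂ) : ⇑(wlatSIF N w) = wlat N w := rfl

/-- The weighted lattice sums converge locally uniformly on `ℍ`. -/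
theorem wlat_tendstoLocallyUniformly [NeZero N] (w : (Fin 2 → ZMod N) → ℂ) :
    TendstoLocallyUniformly
      (fun (s : Finset (Fin 2 → ℤ)) ↦ (∑ x ∈ s, w ((↑) ∘ x) * eisSummand 3 x ·))
      (wlat N w ·) Filter.atTop := by
  obtain ⟨C, hC0, hC⟩ := exists_bound_w w
  have hk' : (2 : ℝ) < (3 : ℤ) := by norm_num
  have p_sum : Summable fun x : Fin 2 → ℤ ↦ ‖x‖ ^ (-(3 : ℤ)) :=
    mod_cast (summable_one_div_norm_rpow hk')
  simp only [tendstoLocallyUniformly_iff_forall_isCompact, wlat]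
  intro K hK
  obtain ⟨A, B, hB, HABK⟩ := subset_verticalStrip_of_isCompact hK
  refine (tendstoUniformlyOn_tsum
    (hu := (p_sum.mul_left <| r ⟨⟨A, B⟩, hB⟩ ^ (-(3 : ℤ) : ℝ)).mul_left C)
    (fun p z hz ↦ ?_)).mono HABK
  rw [norm_mul]
  refine mul_le_mul (hC _) ?_ (norm_nonneg _) hC0
  simpa only [eisSummand, one_div, ← _root_.zpow_neg, norm_zpow, ← Real.rpow_intCast,
    Int.cast_neg] using summand_bound_of_mem_verticalStrip (k := (3 : ℤ)) (by positivity) p hB hz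

lemma wlat_tendstoLocallyUniformlyOn [NeZero N] (w : (Fin 2 → ZMod N) → ℂ) :
    TendstoLocallyUniformlyOn (fun (s : Finset (Fin 2 → ℤ)) ↦
      ↑ₕ(fun (z : ℍ) ↦ ∑ x ∈ s, w ((↑) ∘ x) * eisSummand 3 x z)) (↑ₕ(wlatSIF N w))
          Filter.atTop {z : ℂ | 0 < z.im} := by
  rw [← upperHalfPlaneSet, ← UpperHalfPlane.range_coe, ← Set.image_univ]
  apply TendstoLocallyUniformlyOn.comp (s := ⊤) _ _ _ (OpenPartialHomeomorph.continuousOn_symm _)
  · simp only [Set.top_eq_univ, tendstoLocallyUniformlyOn_univ]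
    apply wlat_tendstoLocallyUniformly w
  · simp only [IsOpenEmbedding.toOpenPartialHomeomorph_target, Set.top_eq_univ,
      Set.mapsTo_range_iff, Set.mem_univ, forall_const]

open scoped Manifold in
/-- weighted lattice sums are holomorphic. -/
theorem wlatSIF_mdifferentiable [NeZero N] (w : (Fin 2 → ZMod N) → ℂ) :
    MDiff (wlatSIF N w) := by
  intro τ
  suffices DifferentiableAt ℂ (↑ₕ(wlatSIF N w)) τ.1 by
    convert!
      MDifferentiableAt.comp τ (DifferentiableAt.mdifferentiableAt this) τ.mdifferentiable_coe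
    exact funext fun z ↦ (comp_ofComplex (wlatSIF N w) z).symm
  refine DifferentiableOn.differentiableAt ?_ (isOpen_upperHalfPlaneSet.mem_nhds τ.2)
  exact (wlat_tendstoLocallyUniformlyOn w).differentiableOn
    (Eventually.of_forall fun s ↦ DifferentiableOn.fun_sum
    fun x _ ↦ by
      have h1 := (eisSummand_extension_differentiableOn 3 x).const_smul (w ((↑) ∘ x))
      refine h1.congr fun z _ => ?_
      simp [Function.comp_def]) isOpen_upperHalfPlaneSet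

theorem norm_wlat_le [NeZero N] (w : (Fin 2 → ZMod N) → ℂ) {C : ℝ}
    (hC : ∀ a, ‖w a‖ ≤ C) (z : ℍ) :
    ‖wlat N w z‖ ≤ C * ∑' (x : Fin 2 → ℤ), ‖eisSummand 3 x z‖ := by
  rw [wlat, ← tsum_mul_left]
  refine le_trans (norm_tsum_le_tsum_norm (summable_norm_wlat w z)) ?_
  refine (summable_norm_wlat w z).tsum_le_tsum (fun x => ?_)
    ((summable_norm_eisSummand (k := 3) le_rfl z).mul_left C)
  rw [norm_mul]
  exact mul_le_mul_of_nonneg_right (hC _) (norm_nonneg _)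

/-- weighted lattice sums are bounded at `i∞`. -/
theorem isBoundedAtImInfty_wlat [NeZero N] (w : (Fin 2 → ZMod N) → ℂ) :
    IsBoundedAtImInfty (wlat N w) := by
  obtain ⟨C, hC0, hC⟩ := exists_bound_w w
  rw [UpperHalfPlane.isBoundedAtImInfty_iff]
  refine ⟨C * ∑' (x : Fin 2 → ℤ), r ⟨⟨N, 2⟩, Nat.ofNat_pos⟩ ^ (-(3 : ℤ)) * ‖x‖ ^ (-(3 : ℤ)), 2, ?_⟩
  intro z hz
  obtain ⟨n, hn⟩ := (ModularGroup_T_zpow_mem_verticalStrip z (NeZero.pos N))
  rw [← wlatSIF_apply, ← SlashInvariantForm.T_zpow_width_invariant N 3 n (wlatSIF N w) z, wlatSIF_apply]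
  refine le_trans (norm_wlat_le w hC _) (mul_le_mul_of_nonneg_left ?_ hC0)
  have hk' : (2 : ℝ) < (3 : ℤ) := by norm_num
  apply (summable_norm_eisSummand (k := 3) le_rfl _).tsum_le_tsum _
  · exact_mod_cast (summable_one_div_norm_rpow hk').mul_left <| r ⟨⟨N, 2⟩, Nat.ofNat_pos⟩ ^ (-(3 : ℤ))
  · intro x
    simp_rw [eisSummand, norm_zpow]
    exact_mod_cast
      summand_bound_of_mem_verticalStrip (k := (3 : ℤ)) (lt_trans two_pos hk').le x two_pos
      (verticalStrip_anti_right N hz hn)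

/-- every `SL(2,ℤ)`-translate of a weighted lattice sum is bounded at `i∞`. -/
theorem isBoundedAtImInfty_wlat_slash [NeZero N] (w : (Fin 2 → ZMod N) → ℂ) (γ : SL(2, ℤ)) :
    IsBoundedAtImInfty (wlat N w ∣[(3 : ℤ)] γ) := by
  rw [wlat_slash]
  exact isBoundedAtImInfty_wlat _

/-- weighted lattice sums as modular forms of level `Γ(N)`. -/
def wlatMF (N : ℕ) [NeZero N] (w : (Fin 2 → ZMod N) → ℂ) : ModularForm Γ(N) 3 where
  toFun := wlatSIF N w
  slash_action_eq' := (wlatSIF N w).slash_action_eq'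
  holo' := wlatSIF_mdifferentiable w
  bdd_at_cusps' {c} hc := by
    rw [Subgroup.IsArithmetic.isCusp_iff_isCusp_SL2Z] at hc
    rw [OnePoint.isBoundedAt_iff_forall_SL2Z hc]
    exact fun γ _ ↦ isBoundedAtImInfty_wlat_slash w γ

theorem coe_wlatMF [NeZero N] (w : (Fin 2 → ZMod N) → ℂ) : ⇑(wlatMF N w) = wlat N w := rfl

/-- weighted lattice sums with a `Γ₁(N)`-invariant weight function as modular forms of level
`Γ₁(N)`. -/
def wlatG1 (N : ℕ) [NeZero N] (w : (Fin 2 → ZMod N) → ℂ)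
    (hw : ∀ γ : SL(2, ℤ), γ ∈ Gamma1 N → ∀ a, w (a ᵥ* redMat N γ) = w a) :
    ModularForm (G1 N) 3 where
  toFun := wlat N w
  slash_action_eq' A hA := by
    obtain ⟨A, hA, rfl⟩ := hA
    show wlat N w ∣[(3 : ℤ)] A = wlat N w
    rw [wlat_slash]
    congr 1
    funext a
    exact hw A⁻¹ ((Gamma1 N).inv_mem hA) a
  holo' := wlatSIF_mdifferentiable w
  bdd_at_cusps' {c} hc := by
    rw [Subgroup.IsArithmetic.isCusp_iff_isCusp_SL2Z] at hc
    rw [OnePoint.isBoundedAt_iff_forall_SL2Z hc]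
    exact fun γ _ ↦ isBoundedAtImInfty_wlat_slash w γ

theorem coe_wlatG1 [NeZero N] (w : (Fin 2 → ZMod N) → ℂ)
    (hw : ∀ γ : SL(2, ℤ), γ ∈ Gamma1 N → ∀ a, w (a ᵥ* redMat N γ) = w a) :
    ⇑(wlatG1 N w hw) = wlat N w := rfl

end Fermat.Agent.S48G1.Theta
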