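import Fermat.Agent.S48.G1.ThetaSr

/-!
# S48 THETA1 (helper92, for helper1's half (B)): Parseval for the residue sums

`Dk N k = ∑_j e(-jk/N) Sr N j` (the discrete Fourier transform of `Sr N`) and
`N · c0 N = - ∑_k (Dk N k)²`  (`Sr` is odd, so `Dk (-k) = - Dk k`).
-/

set_option autoImplicit false

noncomputable section

namespace Fermat.Agent.S48G1.Theta

open ZMod

variable {N : ℕ}

/-- the discrete Fourier transform of `Sr N`. -/
def Dk (N : ℕ) [NeZero N] (k : ZMod N) : ℂ :=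
  ∑ j : ZMod N, ZMod.stdAddChar (N := N) (-(j * k)) * ((Sr N j : ℝ) : ℂ)

theorem Dk_eq_dft [NeZero N] (k : ZMod N) :
    Dk N k = ZMod.dft (fun j : ZMod N => ((Sr N j : ℝ) : ℂ)) k := by
  rw [ZMod.dft_apply]
  rfl

theorem Dk_neg [NeZero N] (k : ZMod N) : Dk N (-k) = -Dk N k := by
  unfold Dk
  rw [← Finset.sum_neg_distrib]
  refine Fintype.sum_equiv (Equiv.neg _) _ _ fun j => ?_
  rw [Equiv.neg_apply, Sr_neg]
  push_cast
  rw [mul_neg j k, neg_mul j k, mul_neg, neg_neg, neg_neg]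

/-- Fourier inversion for `Sr`. -/
theorem sum_stdAddChar_mul_Dk [NeZero N] (j : ZMod N) :
    ∑ k : ZMod N, ZMod.stdAddChar (N := N) (-(k * j)) * Dk N k =
      (N : ℂ) * ((Sr N (-j) : ℝ) : ℂ) := by
  have h := congrFun (ZMod.dft_dft (fun j : ZMod N => ((Sr N j : ℝ) : ℂ))) j
  rw [ZMod.dft_apply] at h
  simp only [smul_eq_mul] at h
  rw [← h]
  refine Finset.sum_congr rfl fun k _ => ?_
  rw [Dk_eq_dft]

/-- **Parseval**: `N c0 = - ∑_k Dk(k)²`. -/
theorem parseval_c0 (N : ℕ) [NeZero N] :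
    (N : ℂ) * ((c0 N : ℝ) : ℂ) = - ∑ k : ZMod N, Dk N k ^ 2 := by
  have h1 : ∑ k : ZMod N, Dk N k ^ 2 =
      ∑ j : ZMod N, ((Sr N j : ℝ) : ℂ) *
        ∑ k : ZMod N, ZMod.stdAddChar (N := N) (-(k * j)) * Dk N k := by
    have : ∀ k : ZMod N, Dk N k ^ 2 =
        ∑ j : ZMod N, ((Sr N j : ℝ) : ℂ) * (ZMod.stdAddChar (N := N) (-(k * j)) * Dk N k) := by
      intro k
      rw [sq]
      nth_rewrite 1 [Dk]
      rw [Finset.sum_mul]
      refine Finset.sum_congr rfl fun j _ => ?_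
      rw [mul_comm j k]
      ring
    simp_rw [this]
    rw [Finset.sum_comm]
    refine Finset.sum_congr rfl fun j _ => ?_
    rw [Finset.mul_sum]
  rw [h1]
  simp_rw [sum_stdAddChar_mul_Dk, Sr_neg]
  unfold c0
  push_cast
  rw [Finset.mul_sum, ← Finset.sum_neg_distrib]
  refine Finset.sum_congr rfl fun j _ => ?_
  ring

end Fermat.Agent.S48G1.Theta
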