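import Fermat.Agent.S48.G1.ThetaQExpRearr

/-!
# S48 THETA1 (B), helper1: the lattice sum over a residue class `{v : v₀ ≡ 0, v₁ ≡ a mod N}`

`clsSum N a τ = ∑_{(m, j) ∈ ℤ²} (N m τ + a + N j)⁻³`
  `= Sr N a + C / N³ ∑_{e ≥ 1} (∑_{d ∣ e} d² (e(a/N)^d - e(-a/N)^d)) q^e`.
-/

set_option autoImplicit false

noncomputable section

namespace Fermat.Agent.S48G1.ThetaQ

open Fermat.Agent.S48G1.Theta

open EisensteinSeries Complex

open UpperHalfPlane hiding I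

variable (N : ℕ) [NeZero N]

/-- the vectors of the residue class `(0, a)`. -/
def clsVec (a : ZMod N) (p : ℤ × ℤ) : Fin 2 → ℤ := ![(N : ℤ) * p.1, (a.val : ℤ) + (N : ℤ) * p.2]

theorem clsVec_injective (a : ZMod N) : Function.Injective (clsVec N a) := by
  intro p p' h
  have hN : (N : ℤ) ≠ 0 := by exact_mod_cast NeZero.ne N
  have h0 := congrFun h 0
  have h1 := congrFun h 1
  simp only [clsVec, Matrix.cons_val_zero, Matrix.cons_val_one] at h0 h1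
  have e0 : p.1 = p'.1 := mul_left_cancel₀ hN h0
  have e1 : p.2 = p'.2 := mul_left_cancel₀ hN (add_left_cancel h1)
  exact Prod.ext e0 e1

theorem mem_range_clsVec (a : ZMod N) (v : Fin 2 → ℤ) :
    v ∈ Set.range (clsVec N a) ↔ ((v 0 : ℤ) : ZMod N) = 0 ∧ ((v 1 : ℤ) : ZMod N) = a := by
  constructor
  · rintro ⟨p, rfl⟩
    simp [clsVec]
  · rintro ⟨h0, h1⟩
    obtain ⟨m, hm⟩ := (ZMod.intCast_zmod_eq_zero_iff_dvd _ N).mp h0
    have h2 : (((v 1 - (a.val : ℤ) : ℤ)) : ZMod N) = 0 := by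
      push_cast
      rw [h1, ZMod.natCast_zmod_val, sub_self]
    obtain ⟨j, hj⟩ := (ZMod.intCast_zmod_eq_zero_iff_dvd _ N).mp h2
    refine ⟨(m, j), ?_⟩
    funext i
    fin_cases i
    · simp [clsVec, hm]
    · simp only [clsVec, Fin.mk_one, Matrix.cons_val_one, Matrix.cons_val_zero]
      rw [← hj]; ring

/-- the lattice sum over the residue class `(0, a)`. -/
def clsSum (a : ZMod N) (τ : ℍ) : ℂ := ∑' p : ℤ × ℤ, eisSummand 3 (clsVec N a p) τ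

theorem summable_clsSum (a : ZMod N) (τ : ℍ) :
    Summable fun p : ℤ × ℤ => eisSummand 3 (clsVec N a p) τ :=
  ((summable_norm_eisSummand (k := 3) le_rfl τ).of_norm).comp_injective (clsVec_injective N a)

/-- the shifted summand. -/
def shSummand (τ : ℍ) (x : ℝ) (m j : ℤ) : ℂ := ((m : ℂ) * (τ : ℂ) + (x : ℂ) + (j : ℂ)) ^ (-3 : ℤ)

theorem eisSummand_clsVec (a : ZMod N) (τ : ℍ) (p : ℤ × ℤ) :
    eisSummand 3 (clsVec N a p) τ =
      ((N : ℂ) ^ 3)⁻¹ * shSummand τ ((a.val : ℝ) / (N : ℝ)) p.1 p.2 := by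
  have hN : (N : ℂ) ≠ 0 := by exact_mod_cast NeZero.ne N
  unfold eisSummand shSummand clsVec
  simp only [Matrix.cons_val_zero, Matrix.cons_val_one]
  have h : (((N : ℤ) * p.1 : ℤ) : ℂ) * (τ : ℂ) + ((((a.val : ℤ) + (N : ℤ) * p.2 : ℤ)) : ℂ) =
      (N : ℂ) * ((p.1 : ℂ) * (τ : ℂ) + (((a.val : ℝ) / (N : ℝ) : ℝ) : ℂ) + (p.2 : ℂ)) := by
    push_cast
    field_simp
    ring
  rw [h, mul_zpow, show (-3 : ℤ) = -((3 : ℕ) : ℤ) by norm_num, zpow_neg, zpow_neg,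
    zpow_natCast, zpow_natCast]

theorem summable_shSummand (a : ZMod N) (τ : ℍ) :
    Summable fun p : ℤ × ℤ => shSummand τ ((a.val : ℝ) / (N : ℝ)) p.1 p.2 := by
  have hN : ((N : ℂ) ^ 3) ≠ 0 := pow_ne_zero 3 (by exact_mod_cast NeZero.ne N)
  have h := (summable_clsSum N a τ).mul_left ((N : ℂ) ^ 3)
  refine h.congr fun p => ?_
  rw [eisSummand_clsVec, ← mul_assoc, mul_inv_cancel₀ hN, one_mul]

theorem clsSum_eq (a : ZMod N) (τ : ℍ) :
    clsSum N a τ = ((N : ℂ) ^ 3)⁻¹ *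
      ∑' m : ℤ, ∑' j : ℤ, shSummand τ ((a.val : ℝ) / (N : ℝ)) m j := by
  unfold clsSum
  rw [← (summable_shSummand N a τ).tsum_prod, ← tsum_mul_left]
  exact tsum_congr fun p => eisSummand_clsVec N a τ p

/-- the function `d ↦ d² e(x)^d`. -/
def fE (x : ℝ) (d : ℕ) : ℂ := (d : ℂ) ^ 2 * eR x ^ d

theorem norm_eR (x : ℝ) : ‖eR x‖ = 1 := by
  unfold eR
  rw [show 2 * (Real.pi : ℂ) * I * (x : ℂ) = ((2 * Real.pi * x : ℝ) : ℂ) * I by push_cast; ring]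
  exact Complex.norm_exp_ofReal_mul_I _

theorem norm_fE_le (x : ℝ) (d : ℕ) : ‖fE x d‖ ≤ (d : ℝ) ^ 2 := by
  unfold fE
  rw [norm_mul, norm_pow, norm_pow, norm_eR, one_pow, mul_one, Complex.norm_natCast]

theorem norm_qT_lt_one (τ : ℍ) : ‖qT τ‖ < 1 := by
  unfold qT
  exact UpperHalfPlane.norm_exp_two_pi_I_lt_one τ

end Fermat.Agent.S48G1.ThetaQ
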