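import Fermat.Agent.S48.G1.ThetaQExpCls

/-!
# S48 THETA1 (B), helper1: the `q`-expansion of the lattice sum over a residue class
-/

set_option autoImplicit false
set_option linter.unusedSectionVars false

noncomputable section

namespace Fermat.Agent.S48G1.ThetaQ

open Fermat.Agent.S48G1.Theta

open EisensteinSeries Complex

open UpperHalfPlane hiding I

variable (N : ℕ) [NeZero N]

/-- `Sr` as a sum over the progression `a + N j`. -/
theorem Sr_eq_tsum_progression (a : ZMod N) :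
    Sr N a = ∑' j : ℤ, ((((a.val : ℤ) + (N : ℤ) * j : ℤ) : ℝ) ^ 3)⁻¹ := by
  have hN : (N : ℤ) ≠ 0 := by exact_mod_cast NeZero.ne N
  have hinj : Function.Injective fun j : ℤ => (a.val : ℤ) + (N : ℤ) * j := fun j j' h =>
    mul_left_cancel₀ hN (add_left_cancel h)
  unfold Sr
  rw [← hinj.tsum_eq]
  · refine tsum_congr fun j => ?_
    rw [if_pos]
    push_cast
    rw [ZMod.natCast_zmod_val, ZMod.natCast_self, zero_mul, add_zero]
  · intro n hn
    rw [Function.mem_support] at hn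
    have h1 : ((n : ℤ) : ZMod N) = a := by
      by_contra h
      exact hn (if_neg h)
    have h2 : (((n - (a.val : ℤ) : ℤ)) : ZMod N) = 0 := by
      push_cast
      rw [h1, ZMod.natCast_zmod_val, sub_self]
    obtain ⟨j, hj⟩ := (ZMod.intCast_zmod_eq_zero_iff_dvd _ N).mp h2
    exact ⟨j, by show (a.val : ℤ) + (N : ℤ) * j = n; rw [← hj]; ring⟩

theorem tsum_shSummand_zero (a : ZMod N) (τ : ℍ) :
    ∑' j : ℤ, shSummand τ ((a.val : ℝ) / (N : ℝ)) 0 j = (N : ℂ) ^ 3 * ((Sr N a : ℝ) : ℂ) := by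
  have hN : (N : ℂ) ≠ 0 := by exact_mod_cast NeZero.ne N
  rw [Sr_eq_tsum_progression, Complex.ofReal_tsum, ← tsum_mul_left]
  refine tsum_congr fun j => ?_
  unfold shSummand
  have h : ((0 : ℤ) : ℂ) * (τ : ℂ) + (((a.val : ℝ) / (N : ℝ) : ℝ) : ℂ) + (j : ℂ) =
      (N : ℂ)⁻¹ * (((a.val : ℤ) + (N : ℤ) * j : ℤ) : ℂ) := by
    push_cast
    field_simp
    ring
  rw [h, mul_zpow, show (-3 : ℤ) = -((3 : ℕ) : ℤ) by norm_num, zpow_neg, zpow_neg,
    zpow_natCast, zpow_natCast, inv_pow, inv_inv]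
  push_cast
  ring

theorem tsum_shSummand_pos (a : ZMod N) (τ : ℍ) (m : ℕ+) :
    ∑' j : ℤ, shSummand τ ((a.val : ℝ) / (N : ℝ)) ((m : ℕ) : ℤ) j =
      lipC * ∑' d : ℕ+, fE ((a.val : ℝ) / (N : ℝ)) (d : ℕ) * qT τ ^ ((m : ℕ) * (d : ℕ)) := by
  have h := qx_lip_pos τ ((a.val : ℝ) / (N : ℝ)) m
  unfold shSummand fE
  simp only [Int.cast_natCast]
  rw [h]
  congr 1
  exact tsum_congr fun d => by ring

theorem tsum_shSummand_neg (a : ZMod N) (τ : ℍ) (m : ℕ+) :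
    ∑' j : ℤ, shSummand τ ((a.val : ℝ) / (N : ℝ)) (-((m : ℕ) : ℤ)) j =
      -(lipC * ∑' d : ℕ+, fE (-((a.val : ℝ) / (N : ℝ))) (d : ℕ) *
        qT τ ^ ((m : ℕ) * (d : ℕ))) := by
  have h := qx_lip_neg τ ((a.val : ℝ) / (N : ℝ)) m
  unfold shSummand fE
  simp only [Int.cast_neg, Int.cast_natCast]
  rw [h]
  congr 2
  exact tsum_congr fun d => by ring

/-- the `q`-expansion of the lattice sum over the residue class `(0, a)`. -/
theorem clsSum_formula (a : ZMod N) (τ : ℍ) :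
    clsSum N a τ = ((Sr N a : ℝ) : ℂ) + ((N : ℂ) ^ 3)⁻¹ * lipC *
      (∑' e : ℕ+, divSum (fE ((a.val : ℝ) / (N : ℝ))) e * qT τ ^ (e : ℕ) -
        ∑' e : ℕ+, divSum (fE (-((a.val : ℝ) / (N : ℝ)))) e * qT τ ^ (e : ℕ)) := by
  have hN : ((N : ℂ) ^ 3) ≠ 0 := pow_ne_zero 3 (by exact_mod_cast NeZero.ne N)
  have hS := summable_shSummand N a τ
  have hsplit := tsum_int_eq_zero_add_tsum_pnat
    (f := fun m : ℤ => ∑' j : ℤ, shSummand τ ((a.val : ℝ) / (N : ℝ)) m j) hS.prod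
  rw [clsSum_eq, hsplit, tsum_shSummand_zero]
  simp only [tsum_shSummand_pos, tsum_shSummand_neg]
  rw [tsum_mul_left, tsum_neg, tsum_mul_left,
    qx_rearr _ (norm_fE_le _) (norm_qT_lt_one τ), qx_rearr _ (norm_fE_le _) (norm_qT_lt_one τ)]
  generalize (∑' e : ℕ+, divSum (fE ((a.val : ℝ) / (N : ℝ))) e * qT τ ^ (e : ℕ)) = A
  generalize (∑' e : ℕ+, divSum (fE (-((a.val : ℝ) / (N : ℝ)))) e * qT τ ^ (e : ℕ)) = B
  generalize ((Sr N a : ℝ) : ℂ) = s
  have hN' : (N : ℂ) ≠ 0 := by exact_mod_cast NeZero.ne N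
  field_simp
  ring

end Fermat.Agent.S48G1.ThetaQ
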