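import Fermat.Agent.S48.G1.ThetaDefs

/-!
# S48 THETA1 (B), helper1: the finite Fourier transform of `Sr`

`∑_j e(-j k / N) Sr(j) = ∑_{n ∈ ℤ} e(-n k / N) n⁻³ = -2 i ∑_{n ≥ 1} sin(2 π n x) / n³`
`= -(4 π³ i / 3) B₃(x)`, `x = k / N`, `B₃(x) = x³ - (3/2) x² + x / 2`.
-/

set_option autoImplicit false
set_option linter.unusedSectionVars false

noncomputable section

namespace Fermat.Agent.S48G1.ThetaQ

open Fermat.Agent.S48G1.Theta

open Complex

variable (N : ℕ) [NeZero N]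

/-- the third Bernoulli polynomial. -/
def bern3 (x : ℝ) : ℝ := x ^ 3 - 3 / 2 * x ^ 2 + 1 / 2 * x

theorem summable_inv_cube_int : Summable fun n : ℤ => ((n : ℝ) ^ 3)⁻¹ := by
  have h := (Real.summable_one_div_int_pow (p := 3)).mpr (by norm_num)
  simpa [one_div] using h

theorem summable_Sr_term (a : ZMod N) :
    Summable fun n : ℤ => if ((n : ℤ) : ZMod N) = a then ((n : ℝ) ^ 3)⁻¹ else 0 := by
  have h := summable_inv_cube_int.indicator {n : ℤ | ((n : ℤ) : ZMod N) = a}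
  refine h.congr fun n => ?_
  by_cases hn : ((n : ℤ) : ZMod N) = a
  · rw [if_pos hn, Set.indicator_of_mem (by exact hn)]
  · rw [if_neg hn, Set.indicator_of_notMem (by exact hn)]

theorem Sr_coe (a : ZMod N) :
    ((Sr N a : ℝ) : ℂ) = ∑' n : ℤ, if ((n : ℤ) : ZMod N) = a then ((n : ℂ) ^ 3)⁻¹ else 0 := by
  unfold Sr
  rw [Complex.ofReal_tsum]
  refine tsum_congr fun n => ?_
  split_ifs <;> push_cast <;> rfl

theorem summable_Sr_term_coe (a : ZMod N) :
    Summable fun n : ℤ => if ((n : ℤ) : ZMod N) = a then ((n : ℂ) ^ 3)⁻¹ else 0 := by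
  have h := (Complex.ofRealCLM.summable (summable_Sr_term N a))
  refine h.congr fun n => ?_
  rw [Complex.ofRealCLM_apply]
  split_ifs <;> push_cast <;> rfl

/-- the additive character `n ↦ e(-n k / N)` on `ℤ`. -/
def chr (k : ZMod N) (n : ℤ) : ℂ := ZMod.stdAddChar (N := N) (-(((n : ℤ) : ZMod N) * k))

theorem chr_eq (k : ZMod N) (n : ℤ) :
    chr N k n = cexp (2 * (Real.pi : ℂ) * I * ((-(n * (k.val : ℤ)) : ℤ) : ℂ) / (N : ℂ)) := by
  unfold chr
  rw [← ZMod.stdAddChar_coe]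
  congr 1
  push_cast
  rw [ZMod.natCast_zmod_val]

/-- the Fourier transform of `Sr` as a sum over `ℤ`. -/
theorem dft_Sr_eq_tsum (k : ZMod N) :
    ∑ j : ZMod N, ZMod.stdAddChar (N := N) (-(j * k)) * ((Sr N j : ℝ) : ℂ) =
      ∑' n : ℤ, chr N k n * ((n : ℂ) ^ 3)⁻¹ := by
  classical
  have h1 : ∀ j : ZMod N, ZMod.stdAddChar (N := N) (-(j * k)) * ((Sr N j : ℝ) : ℂ) =
      ∑' n : ℤ, ZMod.stdAddChar (N := N) (-(j * k)) *
        (if ((n : ℤ) : ZMod N) = j then ((n : ℂ) ^ 3)⁻¹ else 0) := by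
    intro j
    rw [Sr_coe, tsum_mul_left]
  rw [Finset.sum_congr rfl fun j _ => h1 j,
    ← Summable.tsum_finsetSum fun j _ => (summable_Sr_term_coe N j).mul_left _]
  refine tsum_congr fun n => ?_
  rw [Finset.sum_eq_single ((n : ℤ) : ZMod N)]
  · rw [if_pos rfl]; rfl
  · intro b _ hb
    rw [if_neg (Ne.symm hb), mul_zero]
  · intro h
    exact absurd (Finset.mem_univ _) h

end Fermat.Agent.S48G1.ThetaQ
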