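import Fermat.Agent.S48.G1.ThetaDefs

/-!
# S48 THETA1 (B), helper1: the Lipschitz formula on a residue class

For `τ ∈ ℍ`, `x ∈ ℝ` and `m ≥ 1`:
* `qx_lip_pos` : `∑_j (m τ + x + j)⁻³ = C ∑_{d ≥ 1} d² e(x)^d q^(m d)`,
* `qx_lip_neg` : `∑_j (-m τ + x + j)⁻³ = - C ∑_{d ≥ 1} d² e(-x)^d q^(m d)`,
with `C = (-2 π i)³ / 2!`, `e(x) = exp(2 π i x)`, `q = exp(2 π i τ)`.
-/

set_option autoImplicit false

noncomputable section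

namespace Fermat.Agent.S48G1.ThetaQ

open Fermat.Agent.S48G1.Theta

open EisensteinSeries Complex

open UpperHalfPlane hiding I

/-- the constant of the Lipschitz formula in weight `3`. -/
def lipC : ℂ := (-2 * (Real.pi : ℂ) * I) ^ 3 / 2

/-- `e(x) = exp(2 π i x)`. -/
def eR (x : ℝ) : ℂ := cexp (2 * (Real.pi : ℂ) * I * (x : ℂ))

/-- `q = exp(2 π i τ)`. -/
def qT (τ : ℍ) : ℂ := cexp (2 * (Real.pi : ℂ) * I * (τ : ℂ))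

theorem qx_im_pos (τ : ℍ) (x : ℝ) (m : ℕ+) : 0 < ((m : ℂ) * (τ : ℂ) + (x : ℂ)).im := by
  have hm : (0 : ℝ) < (m : ℕ) := by exact_mod_cast m.pos
  simpa using mul_pos hm τ.im_pos

theorem qx_lip_pos (τ : ℍ) (x : ℝ) (m : ℕ+) :
    ∑' j : ℤ, ((m : ℂ) * (τ : ℂ) + (x : ℂ) + (j : ℂ)) ^ (-3 : ℤ) =
      lipC * ∑' d : ℕ+, ((d : ℕ) : ℂ) ^ 2 * (eR x ^ (d : ℕ) * qT τ ^ ((m : ℕ) * (d : ℕ))) := by
  have h := qExpansion_identity_pnat (k := 2) (by norm_num)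
    (⟨(m : ℂ) * (τ : ℂ) + (x : ℂ), qx_im_pos τ x m⟩ : ℍ)
  have hL : ∑' j : ℤ, ((m : ℂ) * (τ : ℂ) + (x : ℂ) + (j : ℂ)) ^ (-3 : ℤ) =
      ∑' n : ℤ, 1 / ((((⟨(m : ℂ) * (τ : ℂ) + (x : ℂ), qx_im_pos τ x m⟩ : ℍ) : ℂ)) + (n : ℂ)) ^
        (2 + 1) := by
    refine tsum_congr fun j => ?_
    rw [one_div, show (-3 : ℤ) = -((2 + 1 : ℕ) : ℤ) by norm_num, zpow_neg, zpow_natCast]
  rw [hL, h]
  have hfac : (Nat.factorial 2 : ℂ) = 2 := by norm_num [Nat.factorial]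
  rw [hfac]
  unfold lipC
  congr 1
  refine tsum_congr fun d => ?_
  have hexp : cexp (2 * (Real.pi : ℂ) * I *
      (((⟨(m : ℂ) * (τ : ℂ) + (x : ℂ), qx_im_pos τ x m⟩ : ℍ) : ℂ))) ^ (d : ℕ) =
      eR x ^ (d : ℕ) * qT τ ^ ((m : ℕ) * (d : ℕ)) := by
    unfold eR qT
    rw [← Complex.exp_nat_mul, ← Complex.exp_nat_mul, ← Complex.exp_nat_mul, ← Complex.exp_add]
    congr 1
    show ((d : ℕ) : ℂ) * (2 * (Real.pi : ℂ) * I * ((m : ℂ) * (τ : ℂ) + (x : ℂ))) = _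
    push_cast
    ring
  rw [hexp]

theorem qx_lip_neg (τ : ℍ) (x : ℝ) (m : ℕ+) :
    ∑' j : ℤ, (-(m : ℂ) * (τ : ℂ) + (x : ℂ) + (j : ℂ)) ^ (-3 : ℤ) =
      -(lipC * ∑' d : ℕ+, ((d : ℕ) : ℂ) ^ 2 *
        (eR (-x) ^ (d : ℕ) * qT τ ^ ((m : ℕ) * (d : ℕ)))) := by
  rw [← qx_lip_pos τ (-x) m, ← tsum_neg]
  rw [← (Equiv.neg ℤ).tsum_eq]
  refine tsum_congr fun j => ?_
  have h : -(m : ℂ) * (τ : ℂ) + (x : ℂ) + (((Equiv.neg ℤ) j : ℤ) : ℂ) =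
      -((m : ℂ) * (τ : ℂ) + ((-x : ℝ) : ℂ) + (j : ℂ)) := by
    simp only [Equiv.neg_apply]
    push_cast
    ring
  rw [h, show (-3 : ℤ) = -((3 : ℕ) : ℤ) by norm_num, zpow_neg, zpow_neg, zpow_natCast,
    zpow_natCast, Odd.neg_pow (by decide), inv_neg]

end Fermat.Agent.S48G1.ThetaQ
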