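import Fermat.Agent.S48.G1.ThetaParseval
import Fermat.Agent.S48.G1.ThetaQExpFourier
import Fermat.Agent.S48.G1.ThetaQExpLip

/-!
# S48 THETA1 (B): interface between the `q`-expansion (helper1) and the final step (helper92)

* `cB N n` : the `q`-coefficients of `Θ = bigTheta N`;
* `HasSumBigTheta N` (H1, helper1) : `Θ(τ) = ∑_n cB N n q^n`, `q = qT τ = exp(2 π i τ)`;
* `DkBern N` (H2, helper1) : `Dk N k = -(4 π³ i / 3) B₃(k / N)`.

Final step (helper92): `H1 → H2 → parseval_c0 → ∃ M > 0, M • qExpansion 1 (thetaMF N) ∈ ZSer`.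
-/

set_option autoImplicit false

noncomputable section

namespace Fermat.Agent.S48G1.ThetaQ

open Fermat.Agent.S48G1.Theta

/-- the `q`-coefficients of `Θ`. -/
def cB (N : ℕ) [NeZero N] (n : ℕ) : ℂ :=
  if n = 0 then ((c0 N : ℝ) : ℂ)
  else ((N : ℂ) ^ 3)⁻¹ * lipC * ∑ d ∈ n.divisors, (d : ℂ) ^ 2 * (-2 * Dk N ((d : ℕ) : ZMod N))

/-- **(H1)** the `q`-expansion of `Θ`. -/
def HasSumBigTheta (N : ℕ) [NeZero N] : Prop :=
  ∀ τ : UpperHalfPlane, HasSum (fun n : ℕ => cB N n * qT τ ^ n) (bigTheta N τ)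

/-- **(H2)** the Fourier transform of `Sr` is the third Bernoulli polynomial. -/
def DkBern (N : ℕ) [NeZero N] : Prop :=
  ∀ k : ZMod N, Dk N k =
    -(4 * (Real.pi : ℂ) ^ 3 * Complex.I / 3) * ((bern3 ((k.val : ℝ) / (N : ℝ)) : ℝ) : ℂ)

end Fermat.Agent.S48G1.ThetaQ
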