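import Fermat.Agent.S48.G1.ThetaQExpLip

/-!
# S48 THETA1 (B), helper1: the rearrangement `∑_{m, d} f(d) r^(m d) = ∑_e (∑_{d ∣ e} f d) r^e`
-/

set_option autoImplicit false

noncomputable section

namespace Fermat.Agent.S48G1.ThetaQ

open Fermat.Agent.S48G1.Theta

open Complex

/-- the divisor sum of `f`. -/
def divSum (f : ℕ → ℂ) (e : ℕ) : ℂ := ∑ d ∈ e.divisors, f d

theorem qx_summable_prod (f : ℕ → ℂ) (hf : ∀ d : ℕ, ‖f d‖ ≤ (d : ℝ) ^ 2) {r : ℂ}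
    (hr : ‖r‖ < 1) :
    Summable fun c : ℕ+ × ℕ+ => f (c.2 : ℕ) * r ^ ((c.1 : ℕ) * (c.2 : ℕ)) := by
  have h := summable_prod_mul_pow (𝕜 := ℝ) 2 (r := ‖r‖) (by simpa using hr)
  refine Summable.of_norm_bounded h fun c => ?_
  rw [norm_mul, norm_pow]
  exact mul_le_mul_of_nonneg_right (by simpa using hf (c.2 : ℕ)) (by positivity)

theorem qx_inner (f : ℕ → ℂ) (r : ℂ) (n : ℕ+) :
    ∑' x : {x // x ∈ (n : ℕ).divisorsAntidiagonal},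
      f ((sigmaAntidiagonalEquivProd ⟨n, x⟩).2 : ℕ) *
        r ^ (((sigmaAntidiagonalEquivProd ⟨n, x⟩).1 : ℕ) *
          ((sigmaAntidiagonalEquivProd ⟨n, x⟩).2 : ℕ)) = divSum f n * r ^ (n : ℕ) := by
  rw [tsum_fintype, Finset.univ_eq_attach]
  have h1 : ∀ x : {x // x ∈ (n : ℕ).divisorsAntidiagonal},
      f ((sigmaAntidiagonalEquivProd ⟨n, x⟩).2 : ℕ) *
        r ^ (((sigmaAntidiagonalEquivProd ⟨n, x⟩).1 : ℕ) *
          ((sigmaAntidiagonalEquivProd ⟨n, x⟩).2 : ℕ)) = f x.1.2 * r ^ (n : ℕ) := by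
    intro x
    have h2 : ((sigmaAntidiagonalEquivProd ⟨n, x⟩).1 : ℕ) *
        ((sigmaAntidiagonalEquivProd ⟨n, x⟩).2 : ℕ) = n := divisorsAntidiagonalFactors_eq x
    rw [h2]
    rfl
  rw [Finset.sum_congr rfl fun x _ => h1 x,
    (n : ℕ).divisorsAntidiagonal.sum_attach fun x : ℕ × ℕ => f x.2 * r ^ (n : ℕ),
    Nat.sum_divisorsAntidiagonal' (f := fun _ y => f y * r ^ (n : ℕ)), divSum, Finset.sum_mul]

theorem qx_summable_sigma (f : ℕ → ℂ) (hf : ∀ d : ℕ, ‖f d‖ ≤ (d : ℝ) ^ 2) {r : ℂ}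
    (hr : ‖r‖ < 1) :
    Summable fun p : (Σ n : ℕ+, {x // x ∈ (n : ℕ).divisorsAntidiagonal}) =>
      f ((sigmaAntidiagonalEquivProd p).2 : ℕ) *
        r ^ (((sigmaAntidiagonalEquivProd p).1 : ℕ) * ((sigmaAntidiagonalEquivProd p).2 : ℕ)) :=
  sigmaAntidiagonalEquivProd.summable_iff.mpr (qx_summable_prod f hf hr)

/-- the rearrangement. -/
theorem qx_rearr (f : ℕ → ℂ) (hf : ∀ d : ℕ, ‖f d‖ ≤ (d : ℝ) ^ 2) {r : ℂ} (hr : ‖r‖ < 1) :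
    ∑' m : ℕ+, ∑' d : ℕ+, f (d : ℕ) * r ^ ((m : ℕ) * (d : ℕ)) =
      ∑' e : ℕ+, divSum f e * r ^ (e : ℕ) := by
  rw [← (qx_summable_prod f hf hr).tsum_prod,
    ← sigmaAntidiagonalEquivProd.tsum_eq, (qx_summable_sigma f hf hr).tsum_sigma]
  exact tsum_congr fun n => qx_inner f r n

theorem qx_summable_divSum (f : ℕ → ℂ) (hf : ∀ d : ℕ, ‖f d‖ ≤ (d : ℝ) ^ 2) {r : ℂ}
    (hr : ‖r‖ < 1) : Summable fun e : ℕ+ => divSum f e * r ^ (e : ℕ) := by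
  have h := (qx_summable_sigma f hf hr).sigma
  refine h.congr fun n => ?_
  exact qx_inner f r n

end Fermat.Agent.S48G1.ThetaQ
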